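import Fermat.Agent.S56.EC.Alg.Coind

/-!
# S56 / EC / ALG : WP EC-A7.  Additive functions: elementary properties and constructions.
-/

set_option autoImplicit false

namespace Fermat.Agent.S56.EC

open Fermat.Agent.CFT (IsSES IsoRep)
open Representation (coind coindV)

variable {k : Type} [Field k] {G H : Type} [Group G] [Group H]
  {V W : Type} [AddCommGroup V] [Module k V] [AddCommGroup W] [Module k W]

lemma AddFun.ev_iso (Φ : AddFun k G) [Module.Finite k V] {ρ : Representation k G V}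
    {σ : Representation k G W} (h : IsoRep ρ σ) : Φ.ev ρ = Φ.ev σ := Φ.iso ρ σ h

lemma AddFun.ev_subsingleton (Φ : AddFun k G) [Subsingleton V] (ρ : Representation k G V) :
    Φ.ev ρ = 0 := by
  have h : IsSES ρ ρ ρ LinearMap.id LinearMap.id :=
    { i_equiv := fun _ _ => rfl
      π_equiv := fun _ _ => rfl
      inj := Function.injective_id
      surj := Function.surjective_id
      exact := fun x => ⟨fun _ => ⟨x, rfl⟩, fun _ => Subsingleton.elim _ _⟩ }
  have h2 := Φ.add ρ ρ ρ _ _ h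
  have h3 : Φ.ev ρ = Φ.ev ρ + Φ.ev ρ := h2
  omega

lemma AddFun.ev_prod (Φ : AddFun k G) [Module.Finite k V] [Module.Finite k W]
    (ρ : Representation k G V) (σ : Representation k G W) :
    Φ.ev (prodRep ρ σ) = Φ.ev ρ + Φ.ev σ :=
  Φ.add _ _ _ _ _ (isSES_prod ρ σ)

lemma AddFun.ev_pow (Φ : AddFun k G) [Module.Finite k V] (ι : Type) [Finite ι]
    (ρ : Representation k G V) : Φ.ev (powRep ι ρ) = (Nat.card ι : ℤ) * Φ.ev ρ := by
  refine Finite.induction_empty_option
    (P := fun ι => Finite ι → Φ.ev (powRep ι ρ) = (Nat.card ι : ℤ) * Φ.ev ρ)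
    (fun {α β} e ih hβ => ?_) (fun _ => ?_) (fun {α} _ ih _ => ?_) ι inferInstance
  · have : Finite α := Finite.of_equiv _ e.symm
    rw [← Φ.ev_iso (isoRep_pow_equiv e ρ), ih this, Nat.card_congr e]
  · rw [Φ.ev_subsingleton]
    simp
  · rw [Φ.ev_iso (isoRep_pow_equiv (Equiv.optionEquivSumPUnit α) ρ),
      Φ.ev_iso (isoRep_pow_sum α PUnit ρ), Φ.ev_prod, ih inferInstance,
      Φ.ev_iso (isoRep_pow_unique PUnit ρ), Finite.card_option]
    push_cast
    ring

/-- pull back of an additive function of `H` along restriction `Rep G → Rep H`, `f : H →* G` -/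
def AddFun.res (f : H →* G) (Φ : AddFun k H) : AddFun k G where
  toFun V _ _ ρ := Φ.toFun V (ρ.comp f)
  iso ρ σ h := Φ.iso _ _ (isoRep_comp f h)
  add ρN ρI ρQ i π h := Φ.add _ _ _ i π (isSES_comp f h)

@[simp] lemma AddFun.res_ev (f : H →* G) (Φ : AddFun k H) (ρ : Representation k G V) :
    (Φ.res f).ev ρ = Φ.ev (ρ.comp f) := rfl

/-- pull back of an additive function of `G` along coinduction `Rep H → Rep G` -/
def AddFun.coind [Finite G] (f : H →* G) (hf : Function.Injective f) (Φ : AddFun k G) :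
    AddFun k H where
  toFun V _ _ σ := Φ.toFun _ (Representation.coind f σ)
  iso σ τ h := by
    have := finite_coindV f σ
    exact Φ.iso _ _ (coind_iso f h)
  add σN σI σQ i π h := by
    have := finite_coindV f σI
    obtain ⟨i', π', h'⟩ := coind_ses f hf h
    exact Φ.add _ _ _ i' π' h'

@[simp] lemma AddFun.coind_ev [Finite G] (f : H →* G) (hf : Function.Injective f) (Φ : AddFun k G)
    (σ : Representation k H V) : (Φ.coind f hf).ev σ = Φ.ev (Representation.coind f σ) := rfl

/-- the difference of two additive functions -/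
def AddFun.sub (Φ Ψ : AddFun k G) : AddFun k G where
  toFun V _ _ ρ := Φ.toFun V ρ - Ψ.toFun V ρ
  iso ρ σ h := by rw [Φ.iso ρ σ h, Ψ.iso ρ σ h]
  add ρN ρI ρQ i π h := by rw [Φ.add ρN ρI ρQ i π h, Ψ.add ρN ρI ρQ i π h]; ring

@[simp] lemma AddFun.sub_ev (Φ Ψ : AddFun k G) (ρ : Representation k G V) :
    (Φ.sub Ψ).ev ρ = Φ.ev ρ - Ψ.ev ρ := rfl

/-- orbit induction for the vanishing of an additive function -/
theorem AddFun.ev_funRep_eq_zero (Φ : AddFun k G) [Module.Finite k V] (Ω : Type) [MulAction G Ω]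
    [Finite Ω] (ρ : Representation k G V)
    (h : ∀ x : Ω, Φ.ev (funRep (G ⧸ MulAction.stabilizer G x) ρ) = 0) :
    Φ.ev (funRep Ω ρ) = 0 := by
  refine (funRep_induction (P := fun V _ _ ρ => Module.Finite k V ∧ Φ.ev ρ = 0)
    (fun ρ σ hiso hρ => ?_) (fun ρ σ hρ hσ => ?_) (fun ρ => ?_) Ω ρ (fun x => ?_)).2
  · have := hρ.1
    exact ⟨finite_of_isoRep hiso, by rw [← Φ.ev_iso hiso, hρ.2]⟩
  · have := hρ.1
    have := hσ.1
    exact ⟨inferInstance, by rw [Φ.ev_prod, hρ.2, hσ.2, add_zero]⟩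
  · exact ⟨inferInstance, Φ.ev_subsingleton ρ⟩
  · have : Finite (G ⧸ MulAction.stabilizer G x) :=
      Finite.of_equiv _ (MulAction.orbitEquivQuotientStabilizer G x)
    exact ⟨inferInstance, h x⟩

end Fermat.Agent.S56.EC
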