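import Fermat.Agent.S56.EC.Alg.Devissage

/-!
# S56 / EC / ALG : WPs EC-A11, EC-A12, EC-A13.   (C1) : "Borel type" groups are Cartan.

`B` finite, `U ⊴ B` a `p`-group of index prime to `p`, `C` a complement (Schur-Zassenhaus,
`Subgroup.exists_right_complement'_of_coprime`), `πC : B →* C` the projection.
-/

set_option autoImplicit false

namespace Fermat.Agent.S56.EC

open Fermat.Agent.CFT (IsSES IsoRep)

variable {k : Type} [Field k] {B : Type} [Group B]

/-- EC-A11 (group theory): the projection onto a complement. -/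
theorem exists_proj_of_isComplement' (U C : Subgroup B) [U.Normal] (h : Subgroup.IsComplement' U C) :
    ∃ πC : B →* ↥C, (∀ c : ↥C, πC c = c) ∧ (∀ b, b * ((πC b : ↥C) : B)⁻¹ ∈ U) ∧
      (∀ u ∈ U, πC u = 1) := by
  let e : B ⧸ U ≃* ↥C := h.symm.QuotientMulEquiv
  have he : ∀ c : ↥C, e ((c : B) : B ⧸ U) = c := by
    intro c
    have : e.symm c = ((c : B) : B ⧸ U) := rfl
    rw [← this, MulEquiv.apply_symm_apply]
  refine ⟨e.toMonoidHom.comp (QuotientGroup.mk' U), he, ?_, ?_⟩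
  · intro b
    set c : ↥C := (e.toMonoidHom.comp (QuotientGroup.mk' U)) b with hc
    have h1 : e ((c : B) : B ⧸ U) = e ((b : B) : B ⧸ U) := by
      rw [he]; rfl
    have h2 := QuotientGroup.eq.1 (e.injective h1)
    exact Subgroup.Normal.mem_comm inferInstance h2
  · intro u hu
    show e ((u : B) : B ⧸ U) = 1
    rw [(QuotientGroup.eq_one_iff u).2 hu, map_one]

/-- EC-A11 (group theory) -/
theorem stabilizer_quot_complement (U C : Subgroup B) [U.Normal] (h : Subgroup.IsComplement' U C)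
    (hunif : ∀ b : B, ∀ u ∈ U, u ≠ 1 → b * u = u * b → ∀ u' ∈ U, b * u' = u' * b) :
    ∃ D₀ : Subgroup ↥C, D₀.Normal ∧ (∀ d ∈ D₀, ∀ x : B ⧸ C, d • x = x) ∧
      ∀ x : B ⧸ C, x ≠ ((1 : B) : B ⧸ C) → MulAction.stabilizer ↥C x = D₀ := by
  have hrep : ∀ x : B ⧸ C, ∃ u ∈ U, x = ((u : B) : B ⧸ C) := by
    intro x
    obtain ⟨b, rfl⟩ := QuotientGroup.mk_surjective x
    obtain ⟨⟨u, c⟩, rfl⟩ := h.2 b
    refine ⟨u, u.2, ?_⟩
    rw [QuotientGroup.eq]
    simp
  have hmem : ∀ d : ↥C, d ∈ (Subgroup.centralizer (U : Set B)).subgroupOf C ↔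
      ∀ u ∈ U, (d : B) * u = u * d := by
    intro d
    rw [Subgroup.mem_subgroupOf, Subgroup.mem_centralizer_iff]
    exact ⟨fun h u hu => (h u hu).symm, fun h u hu => (h u hu).symm⟩
  have hfix : ∀ d ∈ (Subgroup.centralizer (U : Set B)).subgroupOf C, ∀ x : B ⧸ C, d • x = x := by
    intro d hd x
    obtain ⟨u, hu, rfl⟩ := hrep x
    show (((d : B) * u : B) : B ⧸ C) = _
    rw [(hmem d).1 hd u hu, QuotientGroup.eq]
    simp
  refine ⟨(Subgroup.centralizer (U : Set B)).subgroupOf C, inferInstance, hfix, ?_⟩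
  intro x hx
  obtain ⟨u, hu, rfl⟩ := hrep x
  have hu1 : u ≠ 1 := by
    rintro rfl
    exact hx rfl
  ext c
  rw [MulAction.mem_stabilizer_iff]
  refine ⟨fun hc => ?_, fun hc => hfix c hc _⟩
  rw [hmem]
  refine hunif c u hu hu1 ?_
  have h1 : (((c : B) * u : B) : B ⧸ C) = ((u : B) : B ⧸ C) := hc
  rw [QuotientGroup.eq] at h1
  -- `(c u)⁻¹ u ∈ C`
  have h2 : ((c : B) * u)⁻¹ * u * c ∈ C := C.mul_mem h1 c.2
  have h3 : ((c : B) * u)⁻¹ * u * c ∈ U := by
    have : ((c : B) * u)⁻¹ * u * c = u⁻¹ * ((c : B)⁻¹ * u * ((c : B)⁻¹)⁻¹) := by group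
    rw [this]
    exact U.mul_mem (U.inv_mem hu) (Subgroup.Normal.conj_mem inferInstance u hu _)
  have h4 : ((c : B) * u)⁻¹ * u * c = 1 := by
    have := h.disjoint.le_bot ⟨h3, h2⟩
    exact this
  have h5 : u * c = (c : B) * u := by
    have := congrArg (fun z => (c : B) * u * z) h4
    simpa [mul_assoc] using this
  exact h5.symm

/-- EC-A12 -/
theorem AddFun.ev_eq_infl_res {p : ℕ} [Fact p.Prime] [CharP k p] [Finite k] (U C : Subgroup B)
    [U.Normal] (hU : IsPGroup p ↥U) (πC : B →* ↥C) (hπ : ∀ b, b * ((πC b : ↥C) : B)⁻¹ ∈ U)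
    (Φ : AddFun k B) (V : Type) [AddCommGroup V] [Module k V] [Module.Finite k V]
    (ρ : Representation k B V) : Φ.ev ρ = Φ.ev ((ρ.comp C.subtype).comp πC) := by
  have key := AddFun.eq_zero_of_pGroup U hU (Φ.sub ((Φ.res πC).res C.subtype)) (by
    intro W _ _ _ σ hσ
    have h1 : (σ.comp C.subtype).comp πC = σ := by
      ext b : 1
      have h2 := hσ _ (hπ b)
      rw [map_mul] at h2
      have h3 : σ b = σ b * σ (((πC b : ↥C) : B)⁻¹) * σ ((πC b : ↥C) : B) := by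
        rw [mul_assoc, ← map_mul, inv_mul_cancel, map_one, mul_one]
      rw [h2, one_mul] at h3
      exact h3.symm
    rw [AddFun.sub_ev, AddFun.res_ev, AddFun.res_ev, h1, sub_self]) V ρ
  rw [AddFun.sub_ev, AddFun.res_ev, AddFun.res_ev] at key
  exact sub_eq_zero.1 key

/-- EC-A13 (abstract core of (C1)) -/
theorem AddFun.eq_zero_of_uniform {C : Type} [Group C] [Finite C] (φ : AddFun k C) (Ω : Type)
    [MulAction C Ω] [Finite Ω] (x₀ : Ω) (hx₀ : ∀ c : C, c • x₀ = x₀) (D₀ : Subgroup C) [D₀.Normal]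
    (hD₀ : ∀ d ∈ D₀, ∀ x : Ω, d • x = x)
    (hstab : ∀ x : Ω, x ≠ x₀ → MulAction.stabilizer C x = D₀)
    (hΩ : ∀ (Y : Type) [AddCommGroup Y] [Module k Y] [Module.Finite k Y]
      (σ : Representation k C Y), φ.ev (funRep Ω σ) = 0)
    (Y : Type) [AddCommGroup Y] [Module k Y] [Module.Finite k Y] (σ : Representation k C Y) :
    φ.ev σ = 0 := by
  -- step 1
  have h1 : φ.ev (funRep (C ⧸ D₀) σ) = 0 := by
    have e1 := hΩ _ (funRep (C ⧸ D₀) σ)
    rw [φ.ev_iso (funRep_funRep_comm Ω (C ⧸ D₀) σ), φ.ev_iso (funRep_quot_funRep D₀ Ω hD₀ σ),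
      φ.ev_pow] at e1
    have : Nonempty Ω := ⟨x₀⟩
    have hc : (Nat.card Ω : ℤ) ≠ 0 := by exact_mod_cast Nat.card_pos.ne'
    exact (mul_eq_zero.1 e1).resolve_left hc
  -- step 2
  let T₁ : SubMulAction C Ω :=
    { carrier := {x | x = x₀}
      smul_mem' := fun c x hx => by
        have hx' : x = x₀ := hx
        show c • x = x₀
        rw [hx', hx₀] }
  let T₂ : SubMulAction C Ω :=
    { carrier := {x | x ≠ x₀}
      smul_mem' := fun c x hx h => hx (by
        have := congrArg (c⁻¹ • ·) h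
        simpa [hx₀] using this) }
  have hT : ∀ x, x ∈ T₁ ↔ x ∉ T₂ := fun x => (not_not (a := x = x₀)).symm
  let _ : Unique ↥T₁ := ⟨⟨⟨x₀, rfl⟩⟩, fun x => Subtype.ext x.2⟩
  have e2 := hΩ _ σ
  rw [φ.ev_iso (funRep_split T₁ T₂ hT σ), φ.ev_prod, φ.ev_iso (funRep_unique ↥T₁ σ)] at e2
  have e3 : φ.ev (funRep ↥T₂ σ) = 0 := by
    refine φ.ev_funRep_eq_zero ↥T₂ σ fun x => ?_
    rw [SubMulAction.stabilizer_of_subMul, hstab x.1 x.2]
    exact h1
  rw [e3, add_zero] at e2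
  exact e2

/-- **(C1)**. -/
theorem cartan_of_borel {p : ℕ} [Fact p.Prime] [CharP k p] [Finite k] [Finite B] (U : Subgroup B)
    [U.Normal] (hU : IsPGroup p ↥U) (hidx : ¬ p ∣ U.index)
    (hunif : ∀ b : B, ∀ u ∈ U, u ≠ 1 → b * u = u * b → ∀ u' ∈ U, b * u' = u' * b) :
    Cartan k B := by
  have hp : p.Prime := Fact.out
  obtain ⟨n, hn⟩ := IsPGroup.iff_card.1 hU
  obtain ⟨C, hC⟩ := Subgroup.exists_right_complement'_of_coprime (N := U) (by
    rw [hn]
    exact Nat.Coprime.pow_left n ((Nat.Prime.coprime_iff_not_dvd hp).2 hidx))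
  obtain ⟨πC, hπ1, hπ2, -⟩ := exists_proj_of_isComplement' U C hC
  obtain ⟨D₀, hD₀n, hD₀, hstab⟩ := stabilizer_quot_complement U C hC hunif
  have hcardC : (Nat.card ↥C : k) ≠ 0 := by
    rw [← hC.symm.index_eq_card, Ne, CharP.cast_eq_zero_iff k p]
    exact hidx
  intro Φ hΦ V _ _ _ ρ
  have hφ : ∀ (Y : Type) [AddCommGroup Y] [Module k Y] [Module.Finite k Y]
      (σ : Representation k ↥C Y), (Φ.res πC).ev (funRep (B ⧸ C) σ) = 0 := by
    intro Y _ _ _ σ
    have h1 : (σ.comp πC).comp C.subtype = σ := by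
      ext c : 1
      show σ (πC c) = σ c
      rw [hπ1]
    have h2 := AddFun.ev_eq_infl_res U C hU πC hπ2 Φ _ (funRep (B ⧸ C) (σ.comp πC))
    rw [funRep_comp_subtype, h1] at h2
    rw [AddFun.res_ev]
    refine h2.symm.trans ?_
    refine hΦ _ _ (isProj_funRep (B ⧸ C) (fun x => ?_) _)
    obtain ⟨b, rfl⟩ := QuotientGroup.mk_surjective x
    have h3 : ((b : B) : B ⧸ C) = b • ((1 : B) : B ⧸ C) := by
      show _ = (((b * 1 : B)) : B ⧸ C)
      rw [mul_one]
    rw [← Nat.card_congr (MulAction.stabilizerEquivStabilizer h3).toEquiv,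
      MulAction.stabilizer_quotient]
    exact hcardC
  rw [AddFun.ev_eq_infl_res U C hU πC hπ2 Φ V ρ, ← AddFun.res_ev]
  refine AddFun.eq_zero_of_uniform (Φ.res πC) (B ⧸ C) ((1 : B) : B ⧸ C) ?_ D₀ hD₀ hstab hφ V _
  intro c
  show (((c : B) * 1 : B) : B ⧸ C) = _
  rw [QuotientGroup.eq]
  simp

end Fermat.Agent.S56.EC
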