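import Fermat.Agent.S56.EC.Alg.Borel

/-!
# S56 / EC / ALG : WPs EC-A14, EC-A15.   (C2) : the Steinberg trick.
-/

set_option autoImplicit false

namespace Fermat.Agent.S56.EC

open Fermat.Agent.CFT (IsSES IsoRep)

variable {k : Type} [Field k] {G : Type} [Group G]

/-- the complement of a fixed point -/
def punctured {X : Type} [MulAction G X] (x₀ : X) (hx₀ : ∀ g : G, g • x₀ = x₀) :
    SubMulAction G X where
  carrier := {x | x ≠ x₀}
  smul_mem' g x hx h := hx (by
    have := congrArg (g⁻¹ • ·) h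
    simpa [hx₀] using this)

/-- EC-A14 -/
theorem st_ses (X : Type) [Fintype X] [MulAction G X] [Nonempty X] {V : Type} [AddCommGroup V]
    [Module k V] (ρ : Representation k G V) :
    IsSES (stRep X ρ) (funRep X ρ) ρ (LinearMap.ker (sumMap k X V)).subtype (sumMap k X V) where
  i_equiv _ _ := rfl
  π_equiv g F := sumMap_funRep X ρ g F
  inj := Subtype.val_injective
  surj v := by
    classical
    obtain ⟨x₀⟩ := ‹Nonempty X›
    exact ⟨Pi.single x₀ v, by simp⟩
  exact F := ⟨fun h => ⟨⟨F, h⟩, rfl⟩, by rintro ⟨n, rfl⟩; exact n.2⟩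

/-- EC-A14 -/
lemma stRep_comp_subtype (P : Subgroup G) (X : Type) [Fintype X] [MulAction G X] {V : Type}
    [AddCommGroup V] [Module k V] (ρ : Representation k G V) :
    (stRep X ρ).comp P.subtype = stRep X (ρ.comp P.subtype) := by
  ext g F x
  rfl

/-- EC-A14: if `x₀` is fixed, `St(V) ≅ V ⊗ k[X - x₀]` (forget the coordinate at `x₀`). -/
theorem st_iso_punctured (X : Type) [Fintype X] [MulAction G X] (x₀ : X)
    (hx₀ : ∀ g : G, g • x₀ = x₀) {V : Type} [AddCommGroup V] [Module k V]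
    (ρ : Representation k G V) : IsoRep (stRep X ρ) (funRep ↥(punctured x₀ hx₀) ρ) := by
  classical
  let e₀ : ↥(LinearMap.ker (sumMap k X V)) →ₗ[k] (↥(punctured x₀ hx₀) → V) :=
    { toFun := fun F x => (F : X → V) x.1
      map_add' := fun _ _ => rfl
      map_smul' := fun _ _ => rfl }
  have hsplit : ∀ F : X → V, ∑ x, F x = F x₀ + ∑ x : ↥(punctured x₀ hx₀), F x.1 := by
    intro F
    rw [← Finset.add_sum_erase Finset.univ F (Finset.mem_univ x₀)]
    congr 1
    exact Finset.sum_subtype (Finset.univ.erase x₀) (p := fun x => x ∈ punctured x₀ hx₀)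
      (fun x => by
        rw [Finset.mem_erase]
        exact ⟨fun h => h.1, fun h => ⟨h, Finset.mem_univ x⟩⟩) F
  have hinj : Function.Injective e₀ := by
    rw [injective_iff_map_eq_zero]
    intro F hF
    have h1 : ∀ x : ↥(punctured x₀ hx₀), (F : X → V) x.1 = 0 := fun x => congrFun hF x
    have h2 : ∑ x, (F : X → V) x = 0 := F.2
    rw [hsplit, Finset.sum_eq_zero (fun x _ => h1 x), add_zero] at h2
    apply Subtype.ext
    funext x
    by_cases hx : x = x₀
    · rw [hx]; exact h2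
    · exact h1 ⟨x, hx⟩
  have hsurj : Function.Surjective e₀ := by
    intro H
    let F : X → V := fun x => if h : x = x₀ then - ∑ y, H y else H ⟨x, h⟩
    have hF : ∀ x : ↥(punctured x₀ hx₀), F x.1 = H x := fun x => dif_neg x.2
    have hF0 : F x₀ = - ∑ y, H y := dif_pos rfl
    refine ⟨⟨F, ?_⟩, funext hF⟩
    rw [LinearMap.mem_ker, sumMap_apply, hsplit, hF0, Finset.sum_congr rfl (fun x _ => hF x),
      neg_add_cancel]
  exact ⟨LinearEquiv.ofBijective e₀ ⟨hinj, hsurj⟩, fun g F => rfl⟩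

/-- EC-A15: `St(V)` is projective. -/
theorem isProj_stRep [Finite G] (X : Type) [Fintype X] [MulAction G X] (P : Subgroup G)
    (hP : (P.index : k) ≠ 0) (x₀ : X) (hfix : ∀ g ∈ P, g • x₀ = x₀)
    (hfree : ∀ x : X, x ≠ x₀ → (Nat.card ↥(MulAction.stabilizer ↥P x) : k) ≠ 0)
    {V : Type} [AddCommGroup V] [Module k V] [Module.Finite k V] (ρ : Representation k G V) :
    IsProj (stRep X ρ) := by
  refine isProj_of_index P hP (stRep X ρ) ?_
  rw [stRep_comp_subtype]
  have hx₀ : ∀ g : ↥P, g • x₀ = x₀ := fun g => hfix g g.2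
  refine IsProj.of_iso (isoRep_symm (st_iso_punctured X x₀ hx₀ (ρ.comp P.subtype))) ?_
  refine isProj_funRep _ (fun x => ?_) _
  rw [SubMulAction.stabilizer_of_subMul]
  exact hfree x.1 x.2

/-- **(C2)**. -/
theorem cartan_of_action [Finite G] (X : Type) [Fintype X] [MulAction G X]
    (hstab : ∀ x : X, Cartan k ↥(MulAction.stabilizer G x)) (P : Subgroup G)
    (hP : (P.index : k) ≠ 0) (x₀ : X) (hfix : ∀ g ∈ P, g • x₀ = x₀)
    (hfree : ∀ x : X, x ≠ x₀ → (Nat.card ↥(MulAction.stabilizer ↥P x) : k) ≠ 0) :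
    Cartan k G := by
  intro Φ hΦ V _ _ _ ρ
  have : Nonempty X := ⟨x₀⟩
  have h1 := Φ.add _ _ _ _ _ (st_ses X ρ)
  have h2 : Φ.ev (stRep X ρ) = 0 := hΦ _ _ (isProj_stRep X P hP x₀ hfix hfree ρ)
  have h3 : Φ.ev (funRep X ρ) = 0 := by
    refine Φ.ev_funRep_eq_zero X ρ fun x => ?_
    rw [Φ.ev_iso (funRep_quot (MulAction.stabilizer G x) ρ)]
    refine hstab x (Φ.coind (MulAction.stabilizer G x).subtype Subtype.val_injective) ?_ V
      (ρ.comp (MulAction.stabilizer G x).subtype)
    intro W _ _ _ σ hσ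
    have := finite_coindV (MulAction.stabilizer G x).subtype σ
    exact hΦ _ _ (hσ.coind _ Subtype.val_injective)
  have h2' : Φ.toFun _ (stRep X ρ) = 0 := h2
  have h3' : Φ.toFun _ (funRep X ρ) = 0 := h3
  rw [h2', h3', zero_add] at h1
  exact h1.symm

end Fermat.Agent.S56.EC
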