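import Fermat.Agent.S56.EC.Alg.FunRep

/-!
# S56 / EC / ALG : WPs EC-A5 (formal properties of Mathlib's `Representation.coind`), EC-A6 (`coind` of the regular
representation, tensor identity).

`Representation.coind f σ` (`f : H →* G`, `σ` a representation of `H` on `Z`) acts on
`Representation.coindV f σ = {F : G → Z | ∀ h g, F (f h * g) = σ h (F g)}` by `(g F)(x) = F (x g)`.
-/

set_option autoImplicit false
set_option linter.unusedVariables false

namespace Fermat.Agent.S56.EC

open Fermat.Agent.CFT (IsSES IsoRep)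
open Representation (coind coindV)

variable {k : Type} [CommRing k] {G H : Type} [Group G] [Group H] (f : H →* G)
  {V W X : Type} [AddCommGroup V] [Module k V] [AddCommGroup W] [Module k W]
  [AddCommGroup X] [Module k X]

/-! ### EC-A5 -/

/-- post-composition with an equivariant map -/
def coindPost {σ : Representation k H V} {τ : Representation k H W} (a : V →ₗ[k] W)
    (ha : ∀ h v, a (σ h v) = τ h (a v)) : ↥(coindV f σ) →ₗ[k] ↥(coindV f τ) :=
  (a.compLeft G).restrict (fun F hF h g => by
    change a (F (f h * g)) = τ h (a (F g))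
    rw [hF h g, ha])

@[simp] lemma coindPost_apply {σ : Representation k H V} {τ : Representation k H W} (a : V →ₗ[k] W)
    (ha : ∀ h v, a (σ h v) = τ h (a v)) (F : ↥(coindV f σ)) (g : G) :
    (coindPost f a ha F : G → W) g = a ((F : G → V) g) := rfl

lemma coind_apply_coe (σ : Representation k H V) (g : G) (F : ↥(coindV f σ)) (x : G) :
    (coind f σ g F : G → V) x = (F : G → V) (x * g) := rfl

lemma coindPost_equiv {σ : Representation k H V} {τ : Representation k H W} (a : V →ₗ[k] W)
    (ha : ∀ h v, a (σ h v) = τ h (a v)) (g : G) (F : ↥(coindV f σ)) :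
    coindPost f a ha (coind f σ g F) = coind f τ g (coindPost f a ha F) := rfl

lemma coind_iso {σ : Representation k H V} {τ : Representation k H W} (h : IsoRep σ τ) :
    IsoRep (coind f σ) (coind f τ) := by
  obtain ⟨e, he⟩ := h
  have he' : ∀ h w, e.symm (τ h w) = σ h (e.symm w) := by
    intro h w
    apply e.injective
    rw [he, e.apply_symm_apply, e.apply_symm_apply]
  refine ⟨LinearEquiv.ofLinearMap (coindPost f e.toLinearMap he) (coindPost f e.symm.toLinearMap he')
    ?_ ?_, fun g F => rfl⟩
  · ext F g
    simp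
  · ext F g
    simp

lemma coind_prod (σ : Representation k H V) (τ : Representation k H W) :
    IsoRep (coind f (prodRep σ τ)) (prodRep (coind f σ) (coind f τ)) := by
  refine ⟨
    { toFun := fun F => (coindPost f (LinearMap.fst k V W) (fun _ _ => rfl) F,
        coindPost f (LinearMap.snd k V W) (fun _ _ => rfl) F)
      map_add' := fun _ _ => rfl
      map_smul' := fun _ _ => rfl
      invFun := fun P => ⟨fun g => ((P.1 : G → V) g, (P.2 : G → W) g), fun h g => by
        change ((P.1 : G → V) (f h * g), (P.2 : G → W) (f h * g)) = _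
        rw [P.1.2 h g, P.2.2 h g]
        rfl⟩
      left_inv := fun _ => rfl
      right_inv := fun _ => rfl }, fun g F => rfl⟩

lemma coind_pow (ι : Type) (σ : Representation k H V) :
    IsoRep (coind f (powRep ι σ)) (powRep ι (coind f σ)) := by
  refine ⟨
    { toFun := fun F i => coindPost f (LinearMap.proj i : (ι → V) →ₗ[k] V) (fun _ _ => rfl) F
      map_add' := fun _ _ => rfl
      map_smul' := fun _ _ => rfl
      invFun := fun P => ⟨fun g i => ((P i : ↥(coindV f σ)) : G → V) g, fun h g => by
        funext i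
        exact (P i).2 h g⟩
      left_inv := fun _ => rfl
      right_inv := fun _ => rfl }, fun g F => rfl⟩

/-- **exactness of coinduction** (`f` injective: choose representatives of `f(H) \ G` to lift). -/
theorem coind_ses (hf : Function.Injective f) {σN : Representation k H V}
    {σI : Representation k H W} {σQ : Representation k H X} {i : V →ₗ[k] W} {π : W →ₗ[k] X}
    (h : IsSES σN σI σQ i π) :
    ∃ (i' : ↥(coindV f σN) →ₗ[k] ↥(coindV f σI)) (π' : ↥(coindV f σI) →ₗ[k] ↥(coindV f σQ)),
      IsSES (coind f σN) (coind f σI) (coind f σQ) i' π' := by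
  classical
  refine ⟨coindPost f i h.i_equiv, coindPost f π h.π_equiv, fun g F => rfl, fun g F => rfl, ?_, ?_, ?_⟩
  · intro F F' hFF
    apply Subtype.ext
    funext g
    apply h.inj
    exact congrFun (congrArg Subtype.val hFF) g
  · intro Q
    -- representatives
    let r : G → G := fun g => (Quotient.mk (QuotientGroup.rightRel f.range) g).out
    have hr : ∀ g, ∃ a : H, f a = g * (r g)⁻¹ := by
      intro g
      have h1 : (QuotientGroup.rightRel f.range) (r g) g :=
        Quotient.exact (Quotient.out_eq (Quotient.mk (QuotientGroup.rightRel f.range) g))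
      rw [QuotientGroup.rightRel_apply] at h1
      exact h1
    choose a ha using hr
    have hr2 : ∀ (b : H) (g : G), r (f b * g) = r g := by
      intro b g
      have : Quotient.mk (QuotientGroup.rightRel f.range) (f b * g) =
          Quotient.mk (QuotientGroup.rightRel f.range) g := by
        apply Quotient.sound
        change (QuotientGroup.rightRel f.range) (f b * g) g
        rw [QuotientGroup.rightRel_apply]
        exact ⟨b⁻¹, by rw [map_inv]; group⟩
      change (Quotient.mk (QuotientGroup.rightRel f.range) (f b * g)).out = _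
      rw [this]
    have ha2 : ∀ (b : H) (g : G), a (f b * g) = b * a g := by
      intro b g
      apply hf
      rw [ha, hr2, map_mul, ha, mul_assoc]
    choose s hs using h.surj
    refine ⟨⟨fun g => σI (a g) (s ((Q : G → X) (r g))), fun b g => ?_⟩, ?_⟩
    · change σI (a (f b * g)) (s ((Q : G → X) (r (f b * g)))) = σI b (σI (a g) (s ((Q : G → X) (r g))))
      rw [ha2, hr2, map_mul]
      rfl
    · apply Subtype.ext
      funext g
      change π (σI (a g) (s ((Q : G → X) (r g)))) = (Q : G → X) g
      rw [h.π_equiv, hs, ← Q.2 (a g) (r g), ha, inv_mul_cancel_right]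
  · intro F
    constructor
    · intro hF
      have h1 : ∀ g, ∃ n, i n = (F : G → W) g := fun g =>
        (h.exact _).1 (congrFun (congrArg Subtype.val hF) g)
      choose n hn using h1
      refine ⟨⟨n, fun b g => ?_⟩, ?_⟩
      · apply h.inj
        rw [hn, h.i_equiv, hn, F.2 b g]
      · apply Subtype.ext
        funext g
        exact hn g
    · rintro ⟨N, rfl⟩
      apply Subtype.ext
      funext g
      exact (h.exact _).2 ⟨_, rfl⟩

lemma finite_coindV {k : Type} [Field k] {V : Type} [AddCommGroup V] [Module k V] [Finite G]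
    [Module.Finite k V] (σ : Representation k H V) : Module.Finite k ↥(coindV f σ) := by
  infer_instance

/-! ### EC-A6 -/

/-- `Coind_H^G k[H] ≅ k[G]`: `F ↦ (g ↦ F g⁻¹ 1)`. -/
theorem coind_reg (hf : Function.Injective f) :
    IsoRep (coind f (regRep k H)) (regRep k G) := by
  refine ⟨
    { toFun := fun F g => (F : G → H → k) g⁻¹ 1
      map_add' := fun _ _ => rfl
      map_smul' := fun _ _ => rfl
      invFun := fun φ => ⟨fun g x => φ (g⁻¹ * f x), fun h g => by
        funext x
        change φ ((f h * g)⁻¹ * f x) = φ (g⁻¹ * f (h⁻¹ * x))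
        rw [mul_inv_rev, map_mul, map_inv, mul_assoc]⟩
      left_inv := fun F => by
        apply Subtype.ext
        funext g x
        change (F : G → H → k) (g⁻¹ * f x)⁻¹ 1 = (F : G → H → k) g x
        have h1 := congrFun (F.2 x⁻¹ g) 1
        have h2 : (g⁻¹ * f x)⁻¹ = f x⁻¹ * g := by rw [mul_inv_rev, inv_inv, map_inv]
        rw [h2, h1]
        change (F : G → H → k) g ((x⁻¹)⁻¹ * 1) = _
        rw [inv_inv, mul_one]
      right_inv := fun φ => by
        funext g
        change φ ((g⁻¹)⁻¹ * f 1) = φ g
        rw [inv_inv, map_one, mul_one] }, fun g F => ?_⟩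
  funext x
  change (F : G → H → k) (x⁻¹ * g) 1 = (F : G → H → k) (g⁻¹ * x)⁻¹ 1
  rw [mul_inv_rev, inv_inv]

/-- **tensor identity** `V ⊗ k[G/H] ≅ Coind_H^G Res_H V`: `F ↦ (g ↦ g (F (g⁻¹ H)))`. -/
theorem funRep_quot (H : Subgroup G) (ρ : Representation k G V) :
    IsoRep (funRep (G ⧸ H) ρ) (coind H.subtype (ρ.comp H.subtype)) := by
  have key : ∀ (Φ : ↥(coindV H.subtype (ρ.comp H.subtype))) (a : G),
      ρ (a : G ⧸ H).out ((Φ : G → V) ((a : G ⧸ H).out)⁻¹) = ρ a ((Φ : G → V) a⁻¹) := by
    intro Φ a
    obtain ⟨h, hh⟩ := QuotientGroup.mk_out_eq_mul H a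
    rw [hh, mul_inv_rev]
    have h1 := Φ.2 h⁻¹ a⁻¹
    change (Φ : G → V) ((h⁻¹ : H) * a⁻¹) = ρ ((h⁻¹ : H) : G) ((Φ : G → V) a⁻¹) at h1
    rw [Subgroup.coe_inv] at h1
    rw [h1, map_mul, Module.End.mul_apply, ← Module.End.mul_apply (ρ (h : G)), ← map_mul,
      mul_inv_cancel, map_one, Module.End.one_apply]
  refine ⟨
    { toFun := fun F => ⟨fun g => ρ g (F ((g⁻¹ : G) : G ⧸ H)), fun h g => by
        change ρ ((h : G) * g) (F ((((h : G) * g)⁻¹ : G) : G ⧸ H)) =
          ρ (h : G) (ρ g (F ((g⁻¹ : G) : G ⧸ H)))
        have : ((((h : G) * g)⁻¹ : G) : G ⧸ H) = ((g⁻¹ : G) : G ⧸ H) := by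
          rw [mul_inv_rev, QuotientGroup.eq]
          simp
        rw [this, map_mul]
        rfl⟩
      map_add' := fun F F' => by
        apply Subtype.ext
        funext g
        exact map_add _ _ _
      map_smul' := fun c F => by
        apply Subtype.ext
        funext g
        exact map_smul _ _ _
      invFun := fun Φ x => ρ x.out ((Φ : G → V) (x.out)⁻¹)
      left_inv := fun F => by
        funext x
        change ρ x.out (ρ (x.out)⁻¹ (F ((((x.out)⁻¹)⁻¹ : G) : G ⧸ H))) = F x
        rw [← Module.End.mul_apply, ← map_mul, mul_inv_cancel, map_one, Module.End.one_apply, inv_inv,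
          QuotientGroup.out_eq']
      right_inv := fun Φ => by
        apply Subtype.ext
        funext g
        change ρ g (ρ ((g⁻¹ : G) : G ⧸ H).out ((Φ : G → V) (((g⁻¹ : G) : G ⧸ H).out)⁻¹)) = _
        rw [key, inv_inv, ← Module.End.mul_apply, ← map_mul, mul_inv_cancel, map_one,
          Module.End.one_apply] }, fun g F => ?_⟩
  apply Subtype.ext
  funext x
  change ρ x (ρ g (F (g⁻¹ • ((x⁻¹ : G) : G ⧸ H)))) = ρ (x * g) (F (((x * g)⁻¹ : G) : G ⧸ H))
  rw [map_mul, mul_inv_rev]
  rfl

end Fermat.Agent.S56.EC
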