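import Fermat.Agent.CFT.F.Ctx

/-!
# S56 / EC (global Euler characteristic) / ALG : definitions.     Architect: helper85.

Everything is UNBUNDLED, as in `CFT/F`: a representation is `ρ : Representation k G V`, `V : Type`.
We reuse `CFT.IsSES`, `CFT.IsoRep` (`CFT/F/Ctx.lean`).

* `prodRep ρ₁ ρ₂` on `V₁ × V₂`, `powRep ι ρ` on `ι → V` (pointwise action);
* `funRep Ω ρ` on `Ω → V`, `Ω` a `G`-set: `(g F)(x) = g (F (g⁻¹ x))`   (`= V ⊗ k[Ω]`);
* `regRep k G = funRep G 1` the regular representation;
* coinduction = Mathlib `Representation.coind f σ` (`f : H →* G`), on `Representation.coindV f σ`;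
* `IsProj ρ` : `ρ` is a direct summand of a finite free module;
* `AddFun k G` : additive functions on finite dimensional representations;
* `Cartan k G` : an additive function vanishing on all projectives vanishes identically.
-/

set_option autoImplicit false

namespace Fermat.Agent.S56.EC

open Fermat.Agent.CFT (IsSES IsoRep)

section Defs

variable {k : Type} [CommRing k] {G : Type} [Group G]

/-- the product of two representations -/
def prodRep {V₁ V₂ : Type} [AddCommGroup V₁] [Module k V₁] [AddCommGroup V₂] [Module k V₂]
    (ρ₁ : Representation k G V₁) (ρ₂ : Representation k G V₂) : Representation k G (V₁ × V₂) where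
  toFun g := (ρ₁ g).prodMap (ρ₂ g)
  map_one' := by ext <;> simp
  map_mul' g h := by ext <;> simp

@[simp] lemma prodRep_apply {V₁ V₂ : Type} [AddCommGroup V₁] [Module k V₁] [AddCommGroup V₂]
    [Module k V₂] (ρ₁ : Representation k G V₁) (ρ₂ : Representation k G V₂) (g : G) (x : V₁ × V₂) :
    prodRep ρ₁ ρ₂ g x = (ρ₁ g x.1, ρ₂ g x.2) := rfl

/-- `ρ^ι` (pointwise action) -/
def powRep (ι : Type) {V : Type} [AddCommGroup V] [Module k V] (ρ : Representation k G V) :
    Representation k G (ι → V) where
  toFun g := (ρ g).compLeft ι
  map_one' := by ext; simp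
  map_mul' g h := by ext; simp

@[simp] lemma powRep_apply (ι : Type) {V : Type} [AddCommGroup V] [Module k V]
    (ρ : Representation k G V) (g : G) (F : ι → V) (i : ι) : powRep ι ρ g F i = ρ g (F i) := rfl

/-- `V ⊗ k[Ω]` : functions on the `G`-set `Ω` with the diagonal action `(g F)(x) = g (F (g⁻¹ x))` -/
def funRep (Ω : Type) [MulAction G Ω] {V : Type} [AddCommGroup V] [Module k V]
    (ρ : Representation k G V) : Representation k G (Ω → V) where
  toFun g :=
    { toFun := fun F x => ρ g (F (g⁻¹ • x))
      map_add' := fun F F' => funext fun x => by simp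
      map_smul' := fun c F => funext fun x => by simp }
  map_one' := by ext F x; simp
  map_mul' g h := by ext F x; simp [mul_smul]

@[simp] lemma funRep_apply (Ω : Type) [MulAction G Ω] {V : Type} [AddCommGroup V] [Module k V]
    (ρ : Representation k G V) (g : G) (F : Ω → V) (x : Ω) :
    funRep Ω ρ g F x = ρ g (F (g⁻¹ • x)) := rfl

variable (k G) in
/-- the regular representation `k[G]` (functions on `G`, `(g F)(x) = F (g⁻¹ x)`) -/
abbrev regRep : Representation k G (G → k) := funRep G (1 : Representation k G k)

/-- **projective** = direct summand of a finite free module -/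
def IsProj {V : Type} [AddCommGroup V] [Module k V] (ρ : Representation k G V) : Prop :=
  ∃ (V₂ : Type) (_ : AddCommGroup V₂) (_ : Module k V₂) (ρ₂ : Representation k G V₂)
    (ι : Type) (_ : Finite ι), IsoRep (prodRep ρ ρ₂) (powRep ι (regRep k G))

/-- the sum map `V ⊗ k[X] → V` -/
noncomputable def sumMap (k : Type) [CommRing k] (X : Type) [Fintype X] (V : Type) [AddCommGroup V]
    [Module k V] : (X → V) →ₗ[k] V where
  toFun F := ∑ x, F x
  map_add' _ _ := by simp [Finset.sum_add_distrib]
  map_smul' _ _ := by simp [Finset.smul_sum]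

@[simp] lemma sumMap_apply (X : Type) [Fintype X] (V : Type) [AddCommGroup V] [Module k V]
    (F : X → V) : sumMap k X V F = ∑ x, F x := rfl

lemma sumMap_funRep (X : Type) [Fintype X] [MulAction G X] {V : Type} [AddCommGroup V] [Module k V]
    (ρ : Representation k G V) (g : G) (F : X → V) :
    sumMap k X V (funRep X ρ g F) = ρ g (sumMap k X V F) := by
  simp only [sumMap_apply, funRep_apply, map_sum]
  exact Fintype.sum_equiv (MulAction.toPerm g⁻¹) _ _ (fun x => rfl)

/-- `St(V) = ker (V ⊗ k[X] → V)` -/
noncomputable def stRep (X : Type) [Fintype X] [MulAction G X] {V : Type} [AddCommGroup V]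
    [Module k V] (ρ : Representation k G V) : Representation k G ↥(LinearMap.ker (sumMap k X V)) where
  toFun g := (funRep X ρ g).restrict (fun F hF => by
    rw [LinearMap.mem_ker] at hF ⊢
    rw [sumMap_funRep, hF, map_zero])
  map_one' := by ext F : 2; simp
  map_mul' g h := by ext F : 2; simp

@[simp] lemma stRep_apply_coe (X : Type) [Fintype X] [MulAction G X] {V : Type} [AddCommGroup V]
    [Module k V] (ρ : Representation k G V) (g : G) (F : ↥(LinearMap.ker (sumMap k X V))) :
    ((stRep X ρ g F : ↥(LinearMap.ker (sumMap k X V))) : X → V) = funRep X ρ g (F : X → V) := rfl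

end Defs

/-- **additive functions** on the finite dimensional representations of `G` over `k` -/
structure AddFun (k : Type) [Field k] (G : Type) [Group G] where
  /-- the function -/
  toFun : ∀ (V : Type) [AddCommGroup V] [Module k V], Representation k G V → ℤ
  iso : ∀ {V W : Type} [AddCommGroup V] [Module k V] [AddCommGroup W] [Module k W]
    [Module.Finite k V] (ρ : Representation k G V) (σ : Representation k G W),
    IsoRep ρ σ → toFun V ρ = toFun W σ
  add : ∀ {N I Q : Type} [AddCommGroup N] [Module k N] [AddCommGroup I] [Module k I]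
    [AddCommGroup Q] [Module k Q] [Module.Finite k I] (ρN : Representation k G N)
    (ρI : Representation k G I) (ρQ : Representation k G Q) (i : N →ₗ[k] I) (π : I →ₗ[k] Q),
    IsSES ρN ρI ρQ i π → toFun I ρI = toFun N ρN + toFun Q ρQ

/-- evaluation with implicit space -/
abbrev AddFun.ev {k : Type} [Field k] {G : Type} [Group G] (Φ : AddFun k G) {V : Type}
    [AddCommGroup V] [Module k V] (ρ : Representation k G V) : ℤ := Φ.toFun V ρ

/-- `G` is **Cartan** over `k`: additive functions are detected by the projectives -/
def Cartan (k : Type) [Field k] (G : Type) [Group G] : Prop :=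
  ∀ Φ : AddFun k G,
    (∀ (V : Type) [AddCommGroup V] [Module k V] [Module.Finite k V] (ρ : Representation k G V),
      IsProj ρ → Φ.ev ρ = 0) →
    ∀ (V : Type) [AddCommGroup V] [Module k V] [Module.Finite k V] (ρ : Representation k G V),
      Φ.ev ρ = 0

end Fermat.Agent.S56.EC
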