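import Fermat.Agent.S56.EC.Alg.Proj

/-!
# S56 / EC / ALG : WP EC-A10.  Dévissage along a normal `p`-subgroup.
-/

set_option autoImplicit false

namespace Fermat.Agent.S56.EC

open Fermat.Agent.CFT (IsSES IsoRep)

variable {k : Type} [Field k] {G : Type} [Group G]

theorem exists_fixed_ne_zero {p : ℕ} [Fact p.Prime] [CharP k p] [Finite k] {U : Type} [Group U]
    (hU : IsPGroup p U) {V : Type} [AddCommGroup V] [Module k V] [Module.Finite k V]
    [Nontrivial V] (ρ : Representation k U V) : ∃ v : V, v ≠ 0 ∧ ∀ u, ρ u v = v := by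
  have hfin : Finite V := Module.finite_of_finite k
  let _ : MulAction U V :=
    { smul := fun u v => ρ u v
      one_smul := fun v => by show ρ 1 v = v; rw [map_one]; rfl
      mul_smul := fun u u' v => by show ρ (u * u') v = ρ u (ρ u' v); rw [map_mul]; rfl }
  have hp : p ∣ Nat.card V := by
    obtain ⟨v, hv⟩ := exists_ne (0 : V)
    have h1 : p • v = 0 := by
      rw [← Nat.cast_smul_eq_nsmul k, CharP.cast_eq_zero, zero_smul]
    have h2 : addOrderOf v = p := by
      rcases (Nat.dvd_prime (Fact.out : p.Prime)).mp (addOrderOf_dvd_of_nsmul_eq_zero h1) with h | h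
      · exact absurd (AddMonoid.addOrderOf_eq_one_iff.mp h) hv
      · exact h
    rw [← h2]
    exact addOrderOf_dvd_natCard v
  have h0 : (0 : V) ∈ MulAction.fixedPoints U V := fun u => map_zero (ρ u)
  obtain ⟨b, hb, hne⟩ := hU.exists_fixed_point_of_prime_dvd_card_of_fixed_point V hp h0
  exact ⟨b, hne.symm, fun u => hb u⟩

/-- sub and quotient representation attached to a stable subspace -/
theorem exists_ses_of_stable {V : Type} [AddCommGroup V] [Module k V] (ρ : Representation k G V)
    (S : Submodule k V) (hS : ∀ g, ∀ v ∈ S, ρ g v ∈ S) :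
    ∃ (ρS : Representation k G ↥S) (ρQ : Representation k G (V ⧸ S)),
      (∀ g (v : ↥S), ((ρS g v : ↥S) : V) = ρ g v) ∧ (∀ g v, ρQ g (S.mkQ v) = S.mkQ (ρ g v)) ∧
      IsSES ρS ρ ρQ S.subtype S.mkQ := by
  let ρS : Representation k G ↥S :=
    { toFun := fun g => (ρ g).restrict (hS g)
      map_one' := by ext v; simp
      map_mul' := fun g g' => by ext v; simp }
  let ρQ : Representation k G (V ⧸ S) :=
    { toFun := fun g => S.mapQ S (ρ g) (fun v hv => hS g v hv)
      map_one' := by
        ext v
        simp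
      map_mul' := fun g g' => by
        ext v
        simp }
  refine ⟨ρS, ρQ, fun g v => rfl, fun g v => rfl, ?_⟩
  refine ⟨fun g n => rfl, fun g x => rfl, Subtype.val_injective, S.mkQ_surjective, fun x => ?_⟩
  rw [Submodule.mkQ_apply, Submodule.Quotient.mk_eq_zero]
  exact ⟨fun hx => ⟨⟨x, hx⟩, rfl⟩, fun ⟨n, hn⟩ => hn ▸ n.2⟩

theorem AddFun.eq_zero_of_pGroup {p : ℕ} [Fact p.Prime] [CharP k p] [Finite k] (U : Subgroup G)
    [U.Normal] (hU : IsPGroup p ↥U) (Φ : AddFun k G)
    (h : ∀ (V : Type) [AddCommGroup V] [Module k V] [Module.Finite k V]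
      (ρ : Representation k G V), (∀ u ∈ U, ρ u = 1) → Φ.ev ρ = 0)
    (V : Type) [AddCommGroup V] [Module k V] [Module.Finite k V] (ρ : Representation k G V) :
    Φ.ev ρ = 0 := by
  have key : ∀ (n : ℕ) (V : Type) [AddCommGroup V] [Module k V] [Module.Finite k V]
      (ρ : Representation k G V), Module.finrank k V = n → Φ.ev ρ = 0 := by
    intro n
    induction n using Nat.strong_induction_on with
    | _ n ih =>
      intro V _ _ _ ρ hn
      rcases subsingleton_or_nontrivial V with hV | hV
      · exact h V ρ (fun u _ => by ext v; exact Subsingleton.elim _ _)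
      · let S : Submodule k V :=
          { carrier := {v | ∀ u ∈ U, ρ u v = v}
            add_mem' := fun {a b} ha hb u hu => by rw [map_add, ha u hu, hb u hu]
            zero_mem' := fun u _ => map_zero _
            smul_mem' := fun c a ha u hu => by rw [map_smul, ha u hu] }
        have hS : ∀ g, ∀ v ∈ S, ρ g v ∈ S := by
          intro g v hv u hu
          have h1 : g⁻¹ * u * g ∈ U := by
            have := (inferInstance : U.Normal).conj_mem u hu g⁻¹
            rwa [inv_inv] at this
          have h2 : u * g = g * (g⁻¹ * u * g) := by group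
          rw [← Module.End.mul_apply, ← map_mul, h2, map_mul, Module.End.mul_apply, hv _ h1]
        obtain ⟨ρS, ρQ, hρS, -, hses⟩ := exists_ses_of_stable ρ S hS
        obtain ⟨v, hv0, hv⟩ := exists_fixed_ne_zero hU (ρ.comp U.subtype)
        have hvS : v ∈ S := fun u hu => hv ⟨u, hu⟩
        have hSpos : 0 < Module.finrank k ↥S := by
          rw [Module.finrank_pos_iff]
          exact ⟨⟨⟨v, hvS⟩, 0, fun he => hv0 (congrArg Subtype.val he)⟩⟩
        have hlt : Module.finrank k (V ⧸ S) < n := by
          have := Submodule.finrank_quotient_add_finrank S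
          omega
        have e1 : Φ.ev ρS = 0 := h _ ρS (fun u hu => by
          ext w
          rw [hρS]
          exact w.2 u hu)
        have e2 : Φ.ev ρQ = 0 := ih _ hlt _ ρQ rfl
        have e3 := Φ.add ρS ρ ρQ _ _ hses
        show Φ.toFun V ρ = 0
        rw [e3]
        show Φ.ev ρS + Φ.ev ρQ = 0
        rw [e1, e2, add_zero]
  exact key _ V ρ rfl

end Fermat.Agent.S56.EC
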