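import Fermat.Agent.S56.EC.Alg.Iso

/-!
# S56 / EC / ALG : WPs EC-A2 (formal properties of `funRep`), EC-A3 (orbit induction), EC-A4 (untwisting).
-/

set_option autoImplicit false

namespace Fermat.Agent.S56.EC

open Fermat.Agent.CFT (IsSES IsoRep)

variable {k : Type} [CommRing k] {G : Type} [Group G]
  {V W X : Type} [AddCommGroup V] [Module k V] [AddCommGroup W] [Module k W]
  [AddCommGroup X] [Module k X]

/-! ### EC-A2 -/

lemma funRep_iso (Ω : Type) [MulAction G Ω] {ρ : Representation k G V} {σ : Representation k G W}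
    (h : IsoRep ρ σ) : IsoRep (funRep Ω ρ) (funRep Ω σ) := by
  obtain ⟨e, he⟩ := h
  refine ⟨LinearEquiv.piCongrRight (fun _ => e), fun g F => ?_⟩
  funext x
  simp [he]

lemma funRep_equiv {Ω Ω' : Type} [MulAction G Ω] [MulAction G Ω'] (e : Ω ≃ Ω')
    (he : ∀ (g : G) (x : Ω), e (g • x) = g • e x) (ρ : Representation k G V) :
    IsoRep (funRep Ω ρ) (funRep Ω' ρ) := by
  refine ⟨LinearEquiv.funCongrLeft k V e.symm, fun g F => ?_⟩
  funext x
  have : e.symm (g⁻¹ • x) = g⁻¹ • e.symm x := by
    apply e.injective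
    rw [he]; simp
  simp [LinearEquiv.funCongrLeft_apply, LinearMap.funLeft_apply, this]

lemma funRep_ses (Ω : Type) [MulAction G Ω] {ρN : Representation k G V}
    {ρI : Representation k G W} {ρQ : Representation k G X} {i : V →ₗ[k] W} {π : W →ₗ[k] X}
    (h : IsSES ρN ρI ρQ i π) :
    IsSES (funRep Ω ρN) (funRep Ω ρI) (funRep Ω ρQ) (i.compLeft Ω) (π.compLeft Ω) where
  i_equiv g F := by funext x; simp [h.i_equiv]
  π_equiv g F := by funext x; simp [h.π_equiv]
  inj F F' hF := by
    funext x
    exact h.inj (congrFun hF x)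
  surj F := by
    choose s hs using h.surj
    exact ⟨fun x => s (F x), by funext x; simp [hs]⟩
  exact F := by
    constructor
    · intro hF
      have : ∀ x, ∃ n, i n = F x := fun x => (h.exact (F x)).1 (congrFun hF x)
      choose s hs using this
      exact ⟨s, by funext x; simp [hs]⟩
    · rintro ⟨s, rfl⟩
      funext x
      exact (h.exact _).2 ⟨s x, rfl⟩

/-- `(V ⊗ k[Ω₂]) ⊗ k[Ω₁] = V ⊗ k[Ω₁ × Ω₂]` -/
lemma funRep_funRep (Ω₁ Ω₂ : Type) [MulAction G Ω₁] [MulAction G Ω₂] (ρ : Representation k G V) :
    IsoRep (funRep Ω₁ (funRep Ω₂ ρ)) (funRep (Ω₁ × Ω₂) ρ) :=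
  ⟨(LinearEquiv.curry k V Ω₁ Ω₂).symm, fun _ _ => rfl⟩

lemma funRep_funRep_comm (Ω₁ Ω₂ : Type) [MulAction G Ω₁] [MulAction G Ω₂]
    (ρ : Representation k G V) :
    IsoRep (funRep Ω₁ (funRep Ω₂ ρ)) (funRep Ω₂ (funRep Ω₁ ρ)) :=
  ⟨{ toFun := fun F y x => F x y
     invFun := fun F x y => F y x
     map_add' := fun _ _ => rfl
     map_smul' := fun _ _ => rfl
     left_inv := fun _ => rfl
     right_inv := fun _ => rfl }, fun _ _ => rfl⟩

lemma funRep_prodRep (Ω : Type) [MulAction G Ω] (ρ : Representation k G V)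
    (σ : Representation k G W) :
    IsoRep (funRep Ω (prodRep ρ σ)) (prodRep (funRep Ω ρ) (funRep Ω σ)) :=
  ⟨{ toFun := fun F => (fun x => (F x).1, fun x => (F x).2)
     invFun := fun F x => (F.1 x, F.2 x)
     map_add' := fun _ _ => rfl
     map_smul' := fun _ _ => rfl
     left_inv := fun _ => rfl
     right_inv := fun _ => rfl }, fun _ _ => rfl⟩

lemma funRep_powRep (Ω ι : Type) [MulAction G Ω] (ρ : Representation k G V) :
    IsoRep (funRep Ω (powRep ι ρ)) (powRep ι (funRep Ω ρ)) :=
  ⟨{ toFun := fun F y x => F x y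
     invFun := fun F x y => F y x
     map_add' := fun _ _ => rfl
     map_smul' := fun _ _ => rfl
     left_inv := fun _ => rfl
     right_inv := fun _ => rfl }, fun _ _ => rfl⟩

/-- a one point set -/
lemma funRep_unique (Ω : Type) [MulAction G Ω] [Unique Ω] (ρ : Representation k G V) :
    IsoRep (funRep Ω ρ) ρ := by
  refine ⟨LinearEquiv.funUnique Ω k V, fun g F => ?_⟩
  simp [Subsingleton.elim (g⁻¹ • (default : Ω)) default]

/-- restriction to a subgroup (`↥H` acts on `Ω` by the Mathlib instance) -/
lemma funRep_comp_subtype (H : Subgroup G) (Ω : Type) [MulAction G Ω] (ρ : Representation k G V) :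
    (funRep Ω ρ).comp H.subtype = funRep Ω (ρ.comp H.subtype) := by
  ext g F x
  rfl

/-- decomposition along a `G`-stable partition -/
lemma funRep_split {Ω : Type} [MulAction G Ω] (T₁ T₂ : SubMulAction G Ω)
    (hT : ∀ x, x ∈ T₁ ↔ x ∉ T₂) (ρ : Representation k G V) :
    IsoRep (funRep Ω ρ) (prodRep (funRep ↥T₁ ρ) (funRep ↥T₂ ρ)) := by
  classical
  have hT' : ∀ x, x ∉ T₁ → x ∈ T₂ := fun x hx => by
    by_contra h
    exact hx ((hT x).2 h)
  refine ⟨{ toFun := fun F => (fun x => F x, fun x => F x)
            invFun := fun F x => if h : x ∈ T₁ then F.1 ⟨x, h⟩ else F.2 ⟨x, hT' x h⟩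
            map_add' := fun _ _ => rfl
            map_smul' := fun _ _ => rfl
            left_inv := fun F => by
              funext x
              by_cases h : x ∈ T₁ <;> simp [h]
            right_inv := fun F => by
              refine Prod.ext ?_ ?_
              · funext x
                simp [x.2]
              · funext x
                have : (x : Ω) ∉ T₁ := fun h => (hT _).1 h x.2
                simp [this] }, fun _ _ => rfl⟩

/-! ### EC-A3 : induction over the orbits -/

/-- a transitive `G`-set is `G ⧸ stabilizer` -/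
lemma funRep_orbit {Ω : Type} [MulAction G Ω] (x : Ω) (ρ : Representation k G V) :
    IsoRep (funRep ↥(MulAction.orbit G x) ρ) (funRep (G ⧸ MulAction.stabilizer G x) ρ) := by
  refine funRep_equiv (MulAction.orbitEquivQuotientStabilizer G x) (fun g y => ?_) ρ
  apply (MulAction.orbitEquivQuotientStabilizer G x).symm.injective
  rw [Equiv.symm_apply_apply]
  obtain ⟨q, hq⟩ := (MulAction.orbitEquivQuotientStabilizer G x).symm.surjective y
  subst hq
  rw [Equiv.apply_symm_apply]
  induction q using Quotient.inductionOn' with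
  | h a =>
    apply Subtype.ext
    change g • ((MulAction.orbitEquivQuotientStabilizer G x).symm (a : G ⧸ _) : Ω) =
      ((MulAction.orbitEquivQuotientStabilizer G x).symm ((g * a : G) : G ⧸ _) : Ω)
    rw [MulAction.orbitEquivQuotientStabilizer_symm_apply,
      MulAction.orbitEquivQuotientStabilizer_symm_apply, mul_smul]

/-- **Orbit induction**: a property of representations which is stable under isomorphisms and products and
holds for `0` holds for `V ⊗ k[Ω]` as soon as it holds for all `V ⊗ k[G/G_x]`.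
(Induct on `Nat.card Ω`: split off one orbit with `funRep_split`; the stabilizer of a point of a `SubMulAction` is
the stabilizer in `Ω`: `SubMulAction.stabilizer_of_subMul`.) -/
theorem funRep_induction
    {P : ∀ (V : Type) [AddCommGroup V] [Module k V], Representation k G V → Prop}
    (hiso : ∀ {V W : Type} [AddCommGroup V] [Module k V] [AddCommGroup W] [Module k W]
      (ρ : Representation k G V) (σ : Representation k G W), IsoRep ρ σ → P V ρ → P W σ)
    (hprod : ∀ {V W : Type} [AddCommGroup V] [Module k V] [AddCommGroup W] [Module k W]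
      (ρ : Representation k G V) (σ : Representation k G W), P V ρ → P W σ →
        P (V × W) (prodRep ρ σ))
    (hzero : ∀ {V : Type} [AddCommGroup V] [Module k V] [Subsingleton V]
      (ρ : Representation k G V), P V ρ)
    (Ω : Type) [MulAction G Ω] [Finite Ω] (ρ : Representation k G V)
    (h : ∀ x : Ω, P _ (funRep (G ⧸ MulAction.stabilizer G x) ρ)) : P _ (funRep Ω ρ) := by
  suffices H : ∀ (n : ℕ) (Ω : Type) [MulAction G Ω] [Finite Ω], Nat.card Ω = n →
      (∀ x : Ω, P _ (funRep (G ⧸ MulAction.stabilizer G x) ρ)) → P _ (funRep Ω ρ) from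
    H _ Ω rfl h
  intro n
  induction n using Nat.strong_induction_on with
  | _ n ih =>
    intro Ω _ _ hn h
    rcases isEmpty_or_nonempty Ω with hΩ | ⟨⟨x⟩⟩
    · exact hzero _
    · -- the orbit of `x` and its complement
      let T₁ : SubMulAction G Ω :=
        { carrier := MulAction.orbit G x
          smul_mem' := fun g y hy => MulAction.mem_orbit_of_mem_orbit g hy }
      let T₂ : SubMulAction G Ω :=
        { carrier := (MulAction.orbit G x)ᶜ
          smul_mem' := fun g y hy hy' => hy (by
            have := MulAction.mem_orbit_of_mem_orbit g⁻¹ hy'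
            rwa [inv_smul_smul] at this) }
      have hT : ∀ y, y ∈ T₁ ↔ y ∉ T₂ := fun y => by
        change y ∈ MulAction.orbit G x ↔ ¬ (y ∉ MulAction.orbit G x)
        rw [not_not]
      have h1 : P _ (funRep ↥T₁ ρ) :=
        hiso _ _ (isoRep_symm (funRep_orbit x ρ)) (h x)
      have hlt : Nat.card ↥T₂ < n := by
        rw [← hn]
        have : Nat.card ↥T₂ = Nat.card ↥((MulAction.orbit G x)ᶜ : Set Ω) := rfl
        rw [this, Nat.card_coe_set_eq]
        have h2 : ((MulAction.orbit G x)ᶜ : Set Ω).ncard < (Set.univ : Set Ω).ncard :=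
          Set.ncard_lt_ncard (by
            refine ⟨Set.subset_univ _, fun hh => ?_⟩
            exact hh (Set.mem_univ x) (MulAction.mem_orbit_self x)) (Set.toFinite _)
        rwa [Set.ncard_univ] at h2
      have h2 : P _ (funRep ↥T₂ ρ) := by
        refine ih _ hlt ↥T₂ rfl (fun y => ?_)
        rw [SubMulAction.stabilizer_of_subMul]
        exact h y
      exact hiso _ _ (isoRep_symm (funRep_split T₁ T₂ hT ρ)) (hprod _ _ h1 h2)

/-! ### EC-A4 : untwisting -/

/-- `k[G/D] ⊗ k[Ω] ⊗ V ≅ (k[G/D] ⊗ V)^Ω` if the normal subgroup `D` acts trivially on `Ω`: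
`F ↦ (ω ↦ (x ↦ F x (x • ω)))`, where `x • ω := g • ω` for `x = g D`. -/
theorem funRep_quot_funRep (D : Subgroup G) [D.Normal] (Ω : Type) [MulAction G Ω]
    (hD : ∀ d ∈ D, ∀ x : Ω, d • x = x) (ρ : Representation k G V) :
    IsoRep (funRep (G ⧸ D) (funRep Ω ρ)) (powRep Ω (funRep (G ⧸ D) ρ)) := by
  -- the action of `G ⧸ D` on `Ω`
  let a : G ⧸ D → Ω → Ω := fun q ω => Quotient.liftOn' q (fun g => g • ω) (fun g g' hgg' => by
    have h1 : g⁻¹ * g' ∈ D := QuotientGroup.leftRel_apply.1 hgg'
    have h2 := hD _ h1 ω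
    change g • ω = g' • ω
    rw [mul_smul, inv_smul_eq_iff] at h2
    exact h2.symm)
  have ha : ∀ (g : G) (ω : Ω), a (g : G ⧸ D) ω = g • ω := fun _ _ => rfl
  let b : G ⧸ D → Ω → Ω := fun q ω => a q⁻¹ ω
  have hb : ∀ (g : G) (ω : Ω), b (g : G ⧸ D) ω = g⁻¹ • ω := fun _ _ => rfl
  have hab : ∀ q ω, a q (b q ω) = ω := fun q ω => by
    induction q using QuotientGroup.induction_on with
    | H g => rw [ha, hb, smul_inv_smul]
  have hba : ∀ q ω, b q (a q ω) = ω := fun q ω => by
    induction q using QuotientGroup.induction_on with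
    | H g => rw [ha, hb, inv_smul_smul]
  refine ⟨{ toFun := fun F ω x => F x (a x ω)
            invFun := fun F x ω => F (b x ω) x
            map_add' := fun _ _ => rfl
            map_smul' := fun _ _ => rfl
            left_inv := fun F => by
              funext x ω
              simp only [hab]
            right_inv := fun F => by
              funext ω x
              simp only [hba] }, fun g F => ?_⟩
  funext ω x
  induction x using QuotientGroup.induction_on with
  | H y =>
    change ρ g (F (g⁻¹ • (y : G ⧸ D)) (g⁻¹ • a (y : G ⧸ D) ω)) =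
      ρ g (F (g⁻¹ • (y : G ⧸ D)) (a (g⁻¹ • (y : G ⧸ D)) ω))
    have : g⁻¹ • (y : G ⧸ D) = ((g⁻¹ * y : G) : G ⧸ D) := rfl
    rw [this, ha, ha, mul_smul]

/-- `k[G] ⊗ V ≅ k[G] ⊗ V_triv`: `F ↦ (g ↦ g⁻¹ F(g))` -/
theorem funRep_self_untwist (ρ : Representation k G V) :
    IsoRep (funRep G ρ) (funRep G (1 : Representation k G V)) := by
  refine ⟨{ toFun := fun F x => ρ x⁻¹ (F x)
            invFun := fun F x => ρ x (F x)
            map_add' := fun _ _ => by funext x; simp
            map_smul' := fun _ _ => by funext x; simp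
            left_inv := fun F => by
              funext x
              simp only [← Module.End.mul_apply, ← map_mul, mul_inv_cancel, map_one,
                Module.End.one_apply]
            right_inv := fun F => by
              funext x
              simp only [← Module.End.mul_apply, ← map_mul, inv_mul_cancel, map_one,
                Module.End.one_apply] }, fun g F => ?_⟩
  funext x
  change ρ x⁻¹ (ρ g (F (g⁻¹ • x))) = ρ (g⁻¹ • x)⁻¹ (F (g⁻¹ • x))
  rw [← Module.End.mul_apply, ← map_mul, smul_eq_mul, mul_inv_rev, inv_inv]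

/-- `k[G] ⊗ V` is free -/
theorem funRep_self_free {k : Type} [Field k] {V : Type} [AddCommGroup V] [Module k V]
    [Module.Finite k V] (ρ : Representation k G V) :
    IsoRep (funRep G ρ) (powRep (Fin (Module.finrank k V)) (regRep k G)) := by
  refine isoRep_trans (funRep_self_untwist ρ) ?_
  have e : V ≃ₗ[k] (Fin (Module.finrank k V) → k) := (Module.finBasis k V).equivFun
  have h1 : IsoRep (1 : Representation k G V)
      (powRep (Fin (Module.finrank k V)) (1 : Representation k G k)) :=
    ⟨e, fun _ _ => rfl⟩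
  exact isoRep_trans (funRep_iso G h1) (funRep_powRep G _ _)

end Fermat.Agent.S56.EC
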