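import Fermat.Agent.S56.EC.Alg.Cartan

/-!
# S56 / EC / ALG : WPs EC-A16, EC-A17, EC-A18, EC-A19.   (C3) : finite subgroups of `GL₂(𝔽)` are Cartan.
-/

set_option autoImplicit false
set_option linter.unusedSectionVars false

namespace Fermat.Agent.S56.EC

open Fermat.Agent.CFT (IsSES IsoRep)
open scoped LinearAlgebra.Projectivization

variable {k : Type} [Field k] {p : ℕ} [Fact p.Prime] [CharP k p] [Finite k]
  {𝔽 : Type} [Field 𝔽] [Finite 𝔽] [CharP 𝔽 p]

theorem not_dvd_card_units_sq (𝔽 : Type) [Field 𝔽] [Finite 𝔽] (p : ℕ) [Fact p.Prime] [CharP 𝔽 p] :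
    ¬ p ∣ Nat.card (𝔽ˣ × 𝔽ˣ) := by
  have hp : p.Prime := Fact.out
  have : Fintype 𝔽 := Fintype.ofFinite 𝔽
  obtain ⟨n, -, hn⟩ := FiniteField.card 𝔽 p
  have hq : p ∣ Nat.card 𝔽 := by
    rw [Nat.card_eq_fintype_card, hn]
    exact dvd_pow_self p n.ne_zero
  have h1 : 0 < Nat.card 𝔽 := Nat.card_pos
  rw [Nat.card_prod, Nat.card_units]
  intro h
  have h2 : p ∣ Nat.card 𝔽 - 1 := (hp.dvd_mul.1 h).elim id id
  have h3 : p ∣ 1 := by
    have := (Nat.dvd_sub hq h2)
    rwa [Nat.sub_sub_self h1] at this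
  exact hp.one_lt.ne' (Nat.dvd_one.1 h3)

include p in
/-- EC-A16: groups of upper triangular matrices `(a β; 0 d)`, in coordinates.
`U := ker a ⊓ ker d`: `β` embeds `U` in `(𝔽,+)` (a `p`-group), `B/U` embeds in `𝔽ˣ × 𝔽ˣ` (order prime to `p`),
`β(b u b⁻¹) = (a b / d b) β(u)` gives `hunif`.  Then `cartan_of_borel`. -/
theorem cartan_of_triangular {B : Type} [Group B] [Finite B] (a d : B →* 𝔽ˣ) (β : B → 𝔽)
    (hβ : ∀ b b', β (b * b') = (a b : 𝔽) * β b' + β b * (d b' : 𝔽))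
    (hinj : ∀ b, a b = 1 → d b = 1 → β b = 0 → b = 1) : Cartan k B := by
  have hinj2 : ∀ x y : B, a x = a y → d x = d y → β x = β y → x = y := by
    intro x y h1 h2 h3
    have e : x = (x * y⁻¹) * y := by group
    have ha : a (x * y⁻¹) = 1 := by rw [map_mul, map_inv, h1, mul_inv_cancel]
    have hd : d (x * y⁻¹) = 1 := by rw [map_mul, map_inv, h2, mul_inv_cancel]
    have hb : β (x * y⁻¹) = 0 := by
      have := hβ (x * y⁻¹) y
      rw [← e, ha, h3, Units.val_one, one_mul] at this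
      have h4 : β (x * y⁻¹) * (d y : 𝔽) = 0 := by linear_combination -this
      exact (mul_eq_zero.1 h4).resolve_right (d y).ne_zero
    have := hinj _ ha hd hb
    exact mul_inv_eq_one.1 this
  set U : Subgroup B := (a.prod d).ker with hU
  have hmemU : ∀ u, u ∈ U ↔ a u = 1 ∧ d u = 1 := by
    intro u
    rw [hU, MonoidHom.mem_ker, MonoidHom.prod_apply, Prod.mk_eq_one]
  have hβ1 : β 1 = 0 := by
    have := hβ 1 1
    simp at this
    exact this
  have hpow : ∀ u ∈ U, ∀ n : ℕ, β (u ^ n) = n * β u := by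
    intro u hu n
    obtain ⟨h1, h2⟩ := (hmemU u).1 hu
    induction n with
    | zero => simp [hβ1]
    | succ n ih =>
      rw [pow_succ, hβ, ih, h2, map_pow, h1]
      push_cast
      simp
      ring
  have hUp : IsPGroup p ↥U := by
    intro u
    refine ⟨1, ?_⟩
    rw [pow_one]
    apply Subtype.ext
    obtain ⟨h1, h2⟩ := (hmemU u.1).1 u.2
    refine hinj _ ?_ ?_ ?_
    · simp [h1]
    · simp [h2]
    · simp only [Subgroup.coe_pow]
      rw [hpow u.1 u.2, CharP.cast_eq_zero, zero_mul]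
  have hidx : ¬ p ∣ U.index := by
    rw [hU, Subgroup.index_ker]
    intro h
    exact not_dvd_card_units_sq 𝔽 p (h.trans (Subgroup.card_subgroup_dvd_card _))
  refine cartan_of_borel (p := p) U hUp hidx ?_
  intro b u hu hu1 hcomm u' hu'
  obtain ⟨h1, h2⟩ := (hmemU u).1 hu
  obtain ⟨h1', h2'⟩ := (hmemU u').1 hu'
  have hβu : β u ≠ 0 := fun h => hu1 (hinj u h1 h2 h)
  have had : (a b : 𝔽) = d b := by
    have e1 := hβ b u
    have e2 := hβ u b
    rw [hcomm, e2, h1, h2] at e1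
    simp only [Units.val_one, one_mul, mul_one] at e1
    have : β u * ((a b : 𝔽) - d b) = 0 := by linear_combination -e1
    exact sub_eq_zero.1 ((mul_eq_zero.1 this).resolve_left hβu)
  refine hinj2 _ _ ?_ ?_ ?_
  · rw [map_mul, map_mul, mul_comm]
  · rw [map_mul, map_mul, mul_comm]
  · rw [hβ, hβ, h1', h2', had]
    simp only [Units.val_one, one_mul, mul_one]
    ring

theorem gl2_diag_ne_zero {F : Type} [Field F] (g : GL (Fin 2) F)
    (h : (g : Matrix (Fin 2) (Fin 2) F) 1 0 = 0) :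
    (g : Matrix (Fin 2) (Fin 2) F) 0 0 ≠ 0 ∧ (g : Matrix (Fin 2) (Fin 2) F) 1 1 ≠ 0 := by
  have := g.det_ne_zero
  rw [Matrix.det_fin_two, h, mul_zero, sub_zero] at this
  exact ⟨left_ne_zero_of_mul this, right_ne_zero_of_mul this⟩

include p in
theorem cartan_of_upper {B : Type} [Group B] [Finite B] (r : B →* GL (Fin 2) 𝔽)
    (hr : Function.Injective r) (h10 : ∀ b, (r b : Matrix (Fin 2) (Fin 2) 𝔽) 1 0 = 0) :
    Cartan k B := by
  let a : B →* 𝔽ˣ := MonoidHom.mk'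
    (fun b => Units.mk0 ((r b : Matrix (Fin 2) (Fin 2) 𝔽) 0 0) (gl2_diag_ne_zero _ (h10 b)).1) (by
      intro b b'
      apply Units.ext
      simp [Matrix.mul_apply, Fin.sum_univ_two, h10])
  let d : B →* 𝔽ˣ := MonoidHom.mk'
    (fun b => Units.mk0 ((r b : Matrix (Fin 2) (Fin 2) 𝔽) 1 1) (gl2_diag_ne_zero _ (h10 b)).2) (by
      intro b b'
      apply Units.ext
      simp [Matrix.mul_apply, Fin.sum_univ_two, h10])
  refine cartan_of_triangular (p := p) a d (fun b => (r b : Matrix (Fin 2) (Fin 2) 𝔽) 0 1) ?_ ?_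
  · intro b b'
    simp [a, d, Matrix.mul_apply, Fin.sum_univ_two]
  · intro b ha hd hb
    apply hr
    rw [map_one]
    apply Units.ext
    have ha' : (r b : Matrix (Fin 2) (Fin 2) 𝔽) 0 0 = 1 := congrArg Units.val ha
    have hd' : (r b : Matrix (Fin 2) (Fin 2) 𝔽) 1 1 = 1 := congrArg Units.val hd
    ext i j
    fin_cases i <;> fin_cases j <;> simp [ha', hd', hb, h10]

theorem exists_gl2_mulVec {F : Type} [Field F] (v : Fin 2 → F) (hv : v ≠ 0) :
    ∃ g : GL (Fin 2) F, (g : Matrix (Fin 2) (Fin 2) F).mulVec ![1, 0] = v := by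
  by_cases h0 : v 0 = 0
  · have h1 : v 1 ≠ 0 := by
      intro h1
      apply hv
      ext i
      fin_cases i <;> simp [h0, h1]
    refine ⟨Matrix.GeneralLinearGroup.mkOfDetNeZero !![v 0, 1; v 1, 0] (by
      simp [Matrix.det_fin_two, h1]), ?_⟩
    ext i
    fin_cases i <;> simp [Matrix.GeneralLinearGroup.mkOfDetNeZero]
  · refine ⟨Matrix.GeneralLinearGroup.mkOfDetNeZero !![v 0, 0; v 1, 1] (by
      simp [Matrix.det_fin_two, h0]), ?_⟩
    ext i
    fin_cases i <;> simp [Matrix.GeneralLinearGroup.mkOfDetNeZero]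

include p in
/-- EC-A17: a group of matrices fixing a line is triangular: if `r b v = a(b) v` for a fixed `v ≠ 0`, complete `v` to a basis. -/
theorem cartan_of_fixed_line {B : Type} [Group B] [Finite B] (r : B →* GL (Fin 2) 𝔽)
    (hr : Function.Injective r) (v : Fin 2 → 𝔽) (hv : v ≠ 0)
    (hfix : ∀ b, ∃ c : 𝔽, (r b : Matrix (Fin 2) (Fin 2) 𝔽).mulVec v = c • v) : Cartan k B := by
  obtain ⟨g, hg⟩ := exists_gl2_mulVec v hv
  have hg' : ((g⁻¹ : GL (Fin 2) 𝔽) : Matrix (Fin 2) (Fin 2) 𝔽).mulVec v = ![1, 0] := by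
    rw [← hg, Matrix.mulVec_mulVec, ← Units.val_mul, inv_mul_cancel, Units.val_one,
      Matrix.one_mulVec]
  refine cartan_of_upper (p := p) ((MulAut.conj g⁻¹).toMonoidHom.comp r)
    ((MulAut.conj g⁻¹).injective.comp hr) ?_
  intro b
  obtain ⟨c, hc⟩ := hfix b
  have h1 : ((((MulAut.conj g⁻¹).toMonoidHom.comp r) b : GL (Fin 2) 𝔽) :
      Matrix (Fin 2) (Fin 2) 𝔽).mulVec ![1, 0] = c • ![1, 0] := by
    simp only [MonoidHom.comp_apply, MulEquiv.coe_toMonoidHom, MulAut.conj_apply, inv_inv,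
      Units.val_mul]
    rw [← Matrix.mulVec_mulVec, hg, ← Matrix.mulVec_mulVec, hc, Matrix.mulVec_smul, hg']
  have h2 := congrFun h1 1
  simpa [Matrix.mulVec, dotProduct, Fin.sum_univ_two] using h2

theorem eigen_eq_one (g : GL (Fin 2) 𝔽) (n : ℕ) (hg : g ^ p ^ n = 1) (x : Fin 2 → 𝔽) (hx : x ≠ 0)
    (c : 𝔽) (hc : (g : Matrix (Fin 2) (Fin 2) 𝔽).mulVec x = c • x) : c = 1 := by
  have hpow : ∀ m : ℕ, ((g ^ m : GL (Fin 2) 𝔽) : Matrix (Fin 2) (Fin 2) 𝔽).mulVec x = c ^ m • x := by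
    intro m
    induction m with
    | zero => simp
    | succ m ih =>
      rw [pow_succ, Units.val_mul, ← Matrix.mulVec_mulVec, hc, Matrix.mulVec_smul, ih, smul_smul,
        pow_succ, mul_comm]
  have h1 := hpow (p ^ n)
  rw [hg, Units.val_one, Matrix.one_mulVec] at h1
  have h2 : (c ^ p ^ n - 1) • x = 0 := by rw [sub_smul, one_smul, ← h1, sub_self]
  have h3 : c ^ p ^ n - 1 = 0 := (smul_eq_zero.1 h2).resolve_right hx
  have h4 : (c - 1) ^ p ^ n = 0 := by rw [sub_pow_char_pow, one_pow, h3]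
  exact sub_eq_zero.1 (pow_eq_zero_iff (pow_ne_zero _ (Fact.out : p.Prime).ne_zero) |>.1 h4)

/-- EC-A18: a matrix of `p`-power order with two independent eigenvectors is `1`. -/
theorem eq_one_of_two_lines (g : GL (Fin 2) 𝔽) (n : ℕ) (hg : g ^ p ^ n = 1) (v w : Fin 2 → 𝔽)
    (hvw : LinearIndependent 𝔽 ![v, w])
    (hv : ∃ c : 𝔽, (g : Matrix (Fin 2) (Fin 2) 𝔽).mulVec v = c • v)
    (hw : ∃ c : 𝔽, (g : Matrix (Fin 2) (Fin 2) 𝔽).mulVec w = c • w) : g = 1 := by
  obtain ⟨c, hc⟩ := hv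
  obtain ⟨c', hc'⟩ := hw
  have hv0 : v ≠ 0 := hvw.ne_zero 0
  have hw0 : w ≠ 0 := hvw.ne_zero 1
  rw [eigen_eq_one g n hg v hv0 c hc, one_smul] at hc
  rw [eigen_eq_one g n hg w hw0 c' hc', one_smul] at hc'
  let b := basisOfLinearIndependentOfCardEqFinrank hvw (by simp)
  have hb : ∀ i, b i = ![v, w] i := fun i => by
    simp [b, coe_basisOfLinearIndependentOfCardEqFinrank]
  have h1 : Matrix.toLin' (g : Matrix (Fin 2) (Fin 2) 𝔽) = LinearMap.id := by
    refine b.ext fun i => ?_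
    rw [hb, Matrix.toLin'_apply, LinearMap.id_apply]
    fin_cases i
    · exact hc
    · exact hc'
  apply Units.ext
  apply Matrix.toLin'.injective
  rw [h1, Units.val_one, Matrix.toLin'_one]

include p in
/-- **(C3)** EC-A19.  `X := ℙ 𝔽 (Fin 2 → 𝔽)` with the action of `Γ` through `r` (`MulAction.compHom`; Mathlib
`Projectivization.instMulAction...` in `LinearAlgebra/Projectivization/Action.lean`, `GL (Fin 2) 𝔽` acts on `Fin 2 → 𝔽` by `mulVec`),
`Nat.card X = Nat.card 𝔽 + 1` (`Projectivization.card_of_finrank_two`), `P` a Sylow `p`-subgroup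
(fixed point: `IsPGroup.nonempty_fixed_point_of_prime_not_dvd_card`), then `cartan_of_action`. -/
theorem cartan_gl2 {Γ : Type} [Group Γ] [Finite Γ] (r : Γ →* GL (Fin 2) 𝔽)
    (hr : Function.Injective r) : Cartan k Γ := by
  classical
  let _ : MulAction Γ (ℙ 𝔽 (Fin 2 → 𝔽)) := MulAction.compHom _ r
  have : Fintype (ℙ 𝔽 (Fin 2 → 𝔽)) := Fintype.ofFinite _
  have hp : p.Prime := Fact.out
  have heig : ∀ (g : Γ) (x : ℙ 𝔽 (Fin 2 → 𝔽)), g • x = x →
      ∃ c : 𝔽, (r g : Matrix (Fin 2) (Fin 2) 𝔽).mulVec x.rep = c • x.rep := by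
    intro g x hx
    have h1 : r g • x = x := hx
    have h2 : r g • Projectivization.mk 𝔽 x.rep x.rep_nonzero
        = Projectivization.mk 𝔽 x.rep x.rep_nonzero := by
      rw [Projectivization.mk_rep]; exact h1
    rw [Projectivization.smul_mk, Projectivization.mk_eq_mk_iff] at h2
    obtain ⟨a, ha⟩ := h2
    exact ⟨a, ha.symm⟩
  let P : Sylow p Γ := default
  have hcard : ¬ p ∣ Nat.card (ℙ 𝔽 (Fin 2 → 𝔽)) := by
    rw [Projectivization.card_of_finrank_two 𝔽 _ (by simp)]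
    have : Fintype 𝔽 := Fintype.ofFinite 𝔽
    obtain ⟨n, -, hn⟩ := FiniteField.card 𝔽 p
    have hq : p ∣ Nat.card 𝔽 := by
      rw [Nat.card_eq_fintype_card, hn]
      exact dvd_pow_self p n.ne_zero
    intro h
    have h3 : p ∣ 1 := (Nat.dvd_add_right hq).1 h
    exact hp.one_lt.ne' (Nat.dvd_one.1 h3)
  obtain ⟨x₀, hx₀⟩ := P.2.nonempty_fixed_point_of_prime_not_dvd_card (ℙ 𝔽 (Fin 2 → 𝔽)) hcard
  refine cartan_of_action (ℙ 𝔽 (Fin 2 → 𝔽)) ?_ (P : Subgroup Γ) ?_ x₀ ?_ ?_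
  · intro x
    refine cartan_of_fixed_line (p := p) (r.comp (MulAction.stabilizer Γ x).subtype)
      (hr.comp Subtype.val_injective) x.rep x.rep_nonzero ?_
    intro b
    exact heig b.1 x b.2
  · rw [Ne, CharP.cast_eq_zero_iff k p]
    exact P.not_dvd_index
  · intro g hg
    exact hx₀ ⟨g, hg⟩
  · intro x hx
    have hbot : MulAction.stabilizer ↥(P : Subgroup Γ) x = ⊥ := by
      rw [eq_bot_iff]
      intro g hg
      obtain ⟨n, hn⟩ := P.2 g
      have hn' : r g.1 ^ p ^ n = 1 := by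
        rw [← map_pow, ← Subgroup.coe_pow, hn, Subgroup.coe_one, map_one]
      have h1 : r g.1 = 1 := eq_one_of_two_lines (r g.1) n hn' x₀.rep x.rep
        ((Projectivization.linearIndependent_pair_iff_ne).2 hx.symm) (heig g.1 x₀ (hx₀ g))
        (heig g.1 x hg)
      rw [Subgroup.mem_bot]
      apply Subtype.ext
      apply hr
      rw [h1, Subgroup.coe_one, map_one]
    rw [hbot]
    simp

end Fermat.Agent.S56.EC
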