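import Fermat.Agent.S56.EC.Alg.Defs

/-!
# S56 / EC / ALG : WP EC-A1.  Formal isomorphisms between `prodRep`, `powRep`, restriction.
All proofs: write down the obvious `LinearEquiv` (`LinearEquiv.prodCongr`, `LinearEquiv.piCongrRight`,
`LinearEquiv.funCongrLeft`, `LinearEquiv.sumArrowLequivProdArrow`, `LinearEquiv.curry`, ...) and check equivariance by `rfl`/`simp`.
-/

set_option autoImplicit false

namespace Fermat.Agent.S56.EC

open Fermat.Agent.CFT (IsSES IsoRep)

variable {k : Type} [CommRing k] {G : Type} [Group G]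
  {V W X V' W' : Type} [AddCommGroup V] [Module k V] [AddCommGroup W] [Module k W]
  [AddCommGroup X] [Module k X] [AddCommGroup V'] [Module k V'] [AddCommGroup W'] [Module k W']

lemma isoRep_refl (ρ : Representation k G V) : IsoRep ρ ρ := ⟨LinearEquiv.refl k V, fun _ _ => rfl⟩

lemma isoRep_symm {ρ : Representation k G V} {σ : Representation k G W} (h : IsoRep ρ σ) :
    IsoRep σ ρ := by
  obtain ⟨e, he⟩ := h
  refine ⟨e.symm, fun g w => ?_⟩
  rw [LinearEquiv.symm_apply_eq, he, LinearEquiv.apply_symm_apply]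

lemma isoRep_trans {ρ : Representation k G V} {σ : Representation k G W}
    {τ : Representation k G X} (h : IsoRep ρ σ) (h' : IsoRep σ τ) : IsoRep ρ τ := by
  obtain ⟨e, he⟩ := h
  obtain ⟨e', he'⟩ := h'
  exact ⟨e.trans e', fun g v => by rw [LinearEquiv.trans_apply, he, he', LinearEquiv.trans_apply]⟩

lemma isoRep_prod {ρ : Representation k G V} {σ : Representation k G W}
    {ρ' : Representation k G V'} {σ' : Representation k G W'} (h : IsoRep ρ σ) (h' : IsoRep ρ' σ') :
    IsoRep (prodRep ρ ρ') (prodRep σ σ') := by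
  obtain ⟨e, he⟩ := h
  obtain ⟨e', he'⟩ := h'
  refine ⟨e.prodCongr e', fun g v => ?_⟩
  simp only [prodRep_apply, LinearEquiv.prodCongr_apply, he, he']

lemma isoRep_prod_comm (ρ : Representation k G V) (σ : Representation k G W) :
    IsoRep (prodRep ρ σ) (prodRep σ ρ) :=
  ⟨LinearEquiv.prodComm k V W, fun _ _ => rfl⟩

lemma isoRep_prod_assoc (ρ : Representation k G V) (σ : Representation k G W)
    (τ : Representation k G X) : IsoRep (prodRep (prodRep ρ σ) τ) (prodRep ρ (prodRep σ τ)) :=
  ⟨LinearEquiv.prodAssoc k V W X, fun _ _ => rfl⟩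

/-- a zero factor can be dropped -/
lemma isoRep_prod_subsingleton [Subsingleton W] (ρ : Representation k G V)
    (σ : Representation k G W) : IsoRep (prodRep ρ σ) ρ := by
  refine ⟨LinearEquiv.ofBijective (LinearMap.fst k V W) ⟨?_, fun v => ⟨(v, 0), rfl⟩⟩,
    fun _ _ => rfl⟩
  rintro ⟨a, b⟩ ⟨a', b'⟩ h
  exact Prod.ext h (Subsingleton.elim _ _)

lemma isoRep_pow (ι : Type) {ρ : Representation k G V} {σ : Representation k G W}
    (h : IsoRep ρ σ) : IsoRep (powRep ι ρ) (powRep ι σ) := by
  obtain ⟨e, he⟩ := h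
  refine ⟨LinearEquiv.piCongrRight fun _ => e, fun g F => ?_⟩
  funext i
  simp only [LinearEquiv.piCongrRight_apply, powRep_apply, he]

lemma isoRep_pow_equiv {ι ι' : Type} (e : ι ≃ ι') (ρ : Representation k G V) :
    IsoRep (powRep ι ρ) (powRep ι' ρ) :=
  ⟨LinearEquiv.funCongrLeft k V e.symm, fun _ _ => rfl⟩

lemma isoRep_pow_sum (ι ι' : Type) (ρ : Representation k G V) :
    IsoRep (powRep (ι ⊕ ι') ρ) (prodRep (powRep ι ρ) (powRep ι' ρ)) :=
  ⟨LinearEquiv.sumArrowLequivProdArrow ι ι' k V, fun _ _ => rfl⟩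

lemma isoRep_pow_pow (ι ι' : Type) (ρ : Representation k G V) :
    IsoRep (powRep ι (powRep ι' ρ)) (powRep (ι × ι') ρ) :=
  ⟨(LinearEquiv.curry k V ι ι').symm, fun _ _ => rfl⟩

lemma isoRep_pow_prod (ι : Type) (ρ : Representation k G V) (σ : Representation k G W) :
    IsoRep (powRep ι (prodRep ρ σ)) (prodRep (powRep ι ρ) (powRep ι σ)) :=
  ⟨{ toFun := fun F => (fun i => (F i).1, fun i => (F i).2)
     map_add' := fun _ _ => rfl
     map_smul' := fun _ _ => rfl
     invFun := fun P i => (P.1 i, P.2 i)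
     left_inv := fun _ => rfl
     right_inv := fun _ => rfl }, fun _ _ => rfl⟩

lemma isoRep_pow_unique (ι : Type) [Unique ι] (ρ : Representation k G V) :
    IsoRep (powRep ι ρ) ρ :=
  ⟨LinearEquiv.funUnique ι k V, fun _ _ => rfl⟩

/-- restriction along `f : H →* G` -/
lemma isoRep_comp {H : Type} [Group H] (f : H →* G) {ρ : Representation k G V}
    {σ : Representation k G W} (h : IsoRep ρ σ) : IsoRep (ρ.comp f) (σ.comp f) := by
  obtain ⟨e, he⟩ := h
  exact ⟨e, fun g v => he (f g) v⟩

lemma isSES_comp {H : Type} [Group H] (f : H →* G) {ρN : Representation k G V}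
    {ρI : Representation k G W} {ρQ : Representation k G X} {i : V →ₗ[k] W} {π : W →ₗ[k] X}
    (h : IsSES ρN ρI ρQ i π) : IsSES (ρN.comp f) (ρI.comp f) (ρQ.comp f) i π :=
  ⟨fun g n => h.i_equiv (f g) n, fun g x => h.π_equiv (f g) x, h.inj, h.surj, h.exact⟩

/-- the split exact sequence -/
lemma isSES_prod (ρ : Representation k G V) (σ : Representation k G W) :
    IsSES ρ (prodRep ρ σ) σ (LinearMap.inl k V W) (LinearMap.snd k V W) := by
  refine ⟨fun g n => ?_, fun _ _ => rfl, LinearMap.inl_injective, LinearMap.snd_surjective,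
    fun x => ⟨fun hx => ⟨x.1, ?_⟩, ?_⟩⟩
  · simp
  · exact Prod.ext rfl hx.symm
  · rintro ⟨n, rfl⟩
    rfl

/-- an equivariantly split injection gives a product decomposition -/
lemma isoRep_prod_of_split {ρ : Representation k G V} {σ : Representation k G W}
    (i : V →ₗ[k] W) (r : W →ₗ[k] V) (hi : ∀ g v, i (ρ g v) = σ g (i v))
    (hr : ∀ g w, r (σ g w) = ρ g (r w)) (hri : ∀ v, r (i v) = v) :
    ∃ (V₂ : Type) (_ : AddCommGroup V₂) (_ : Module k V₂) (ρ₂ : Representation k G V₂),
      IsoRep (prodRep ρ ρ₂) σ := by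
  have hstab : ∀ g : G, ∀ w ∈ LinearMap.ker r, σ g w ∈ LinearMap.ker r := by
    intro g w hw
    rw [LinearMap.mem_ker] at hw ⊢
    rw [hr, hw, map_zero]
  let ρ₂ : Representation k G ↥(LinearMap.ker r) :=
    { toFun := fun g => (σ g).restrict (hstab g)
      map_one' := by ext w : 2; simp
      map_mul' := fun g h => by ext w : 2; simp }
  have hρ₂ : ∀ g (w : ↥(LinearMap.ker r)), ((ρ₂ g w : ↥(LinearMap.ker r)) : W) = σ g w :=
    fun _ _ => rfl
  refine ⟨↥(LinearMap.ker r), inferInstance, inferInstance, ρ₂, ?_⟩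
  let e : (V × ↥(LinearMap.ker r)) ≃ₗ[k] W :=
    { toFun := fun x => i x.1 + (x.2 : W)
      map_add' := fun x y => by
        simp only [Prod.fst_add, Prod.snd_add, map_add, Submodule.coe_add]
        abel
      map_smul' := fun c x => by
        simp only [Prod.smul_fst, Prod.smul_snd, map_smul, Submodule.coe_smul, RingHom.id_apply,
          smul_add]
      invFun := fun w => (r w, ⟨w - i (r w), by
        rw [LinearMap.mem_ker, map_sub, hri, sub_self]⟩)
      left_inv := fun x => by
        have h1 : r (i x.1 + (x.2 : W)) = x.1 := by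
          rw [map_add, hri, LinearMap.mem_ker.1 x.2.2, add_zero]
        refine Prod.ext h1 (Subtype.ext ?_)
        show i x.1 + (x.2 : W) - i (r (i x.1 + (x.2 : W))) = x.2
        rw [h1]
        abel
      right_inv := fun w => by
        show i (r w) + (w - i (r w)) = w
        abel }
  refine ⟨e, fun g x => ?_⟩
  show i (ρ g x.1) + ((ρ₂ g x.2 : ↥(LinearMap.ker r)) : W) = σ g (i x.1 + (x.2 : W))
  rw [hi, hρ₂, map_add]

lemma finite_of_isoRep [Module.Finite k V] {ρ : Representation k G V} {σ : Representation k G W}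
    (h : IsoRep ρ σ) : Module.Finite k W := by
  obtain ⟨e, -⟩ := h
  exact Module.Finite.equiv e

end Fermat.Agent.S56.EC
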