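import Fermat.Agent.S56.EC.Alg.AddFun

/-!
# S56 / EC / ALG : WP EC-A20.  Additive functions and orbit decompositions (counting form).
-/

set_option autoImplicit false

namespace Fermat.Agent.S56.EC

open Fermat.Agent.CFT (IsSES IsoRep)

/-- decomposition of a `G`-set into two pieces given by equivariant maps -/
lemma funRep_split_maps {k : Type} [CommRing k] {G : Type} [Group G] {V : Type} [AddCommGroup V]
    [Module k V] {Ω Ω₁ Ω₂ : Type} [MulAction G Ω] [MulAction G Ω₁] [MulAction G Ω₂]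
    (j₁ : Ω₁ → Ω) (j₂ : Ω₂ → Ω) (h₁ : ∀ (g : G) x, j₁ (g • x) = g • j₁ x)
    (h₂ : ∀ (g : G) x, j₂ (g • x) = g • j₂ x) (hbij : Function.Bijective (Sum.elim j₁ j₂))
    (ρ : Representation k G V) :
    IsoRep (funRep Ω ρ) (prodRep (funRep Ω₁ ρ) (funRep Ω₂ ρ)) := by
  refine ⟨(LinearEquiv.funCongrLeft k V (Equiv.ofBijective _ hbij)).trans
    (LinearEquiv.sumArrowLequivProdArrow Ω₁ Ω₂ k V), fun g F => ?_⟩
  refine Prod.ext ?_ ?_
  · funext x
    show ρ g (F (g⁻¹ • j₁ x)) = ρ g (F (j₁ (g⁻¹ • x)))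
    rw [h₁]
  · funext x
    show ρ g (F (g⁻¹ • j₂ x)) = ρ g (F (j₂ (g⁻¹ • x)))
    rw [h₂]

variable {k : Type} [Field k] {G : Type} [Group G] {V : Type} [AddCommGroup V] [Module k V]

/-- the union of the orbits of the `x i`, `i ∈ s` -/
def orbUnion {Ω : Type} [MulAction G Ω] {ι : Type} (x : ι → Ω) (s : Finset ι) :
    SubMulAction G Ω where
  carrier := {y | ∃ i ∈ s, y ∈ MulAction.orbit G (x i)}
  smul_mem' := fun g _ ⟨i, hi, hy⟩ => ⟨i, hi, MulAction.mem_orbit_of_mem_orbit g hy⟩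

theorem AddFun.ev_funRep_orbUnion (Φ : AddFun k G) [Module.Finite k V] (Ω : Type) [MulAction G Ω]
    [Finite Ω] {ι : Type} (x : ι → Ω)
    (hx : ∀ (y : Ω) (i j : ι), y ∈ MulAction.orbit G (x i) → y ∈ MulAction.orbit G (x j) → i = j)
    (ρ : Representation k G V) (s : Finset ι) :
    Φ.ev (funRep ↥(orbUnion (G := G) x s) ρ) =
      ∑ i ∈ s, Φ.ev (funRep (G ⧸ MulAction.stabilizer G (x i)) ρ) := by
  classical
  induction s using Finset.induction_on with
  | empty =>
    have : IsEmpty ↥(orbUnion (G := G) x ∅) := ⟨fun y => by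
      obtain ⟨i, hi, -⟩ := y.2
      exact absurd hi (Finset.notMem_empty i)⟩
    rw [Finset.sum_empty]
    exact Φ.ev_subsingleton _
  | insert a s ha ih =>
    rw [Finset.sum_insert ha, ← ih, ← Φ.ev_iso (funRep_orbit (x a) ρ), ← Φ.ev_prod]
    refine Φ.ev_iso (funRep_split_maps
      (fun y : ↥(MulAction.orbit G (x a)) =>
        (⟨y.1, a, Finset.mem_insert_self a s, y.2⟩ : ↥(orbUnion (G := G) x (insert a s))))
      (fun y : ↥(orbUnion (G := G) x s) =>
        (⟨y.1, by
          obtain ⟨i, hi, hy⟩ := y.2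
          exact ⟨i, Finset.mem_insert_of_mem hi, hy⟩⟩ : ↥(orbUnion (G := G) x (insert a s))))
      (fun _ _ => rfl) (fun _ _ => rfl) ⟨?_, ?_⟩ ρ)
    · rintro (y | y) (z | z) h
      · have h' : y.1 = z.1 :=
          congrArg (fun t : ↥(orbUnion (G := G) x (insert a s)) => t.1) h
        rw [Subtype.ext h']
      · exfalso
        have h' : y.1 = z.1 :=
          congrArg (fun t : ↥(orbUnion (G := G) x (insert a s)) => t.1) h
        obtain ⟨i, hi, hz⟩ := z.2
        have := hx y.1 a i y.2 (h' ▸ hz)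
        exact ha (this ▸ hi)
      · exfalso
        have h' : y.1 = z.1 :=
          congrArg (fun t : ↥(orbUnion (G := G) x (insert a s)) => t.1) h
        obtain ⟨i, hi, hy⟩ := y.2
        have := hx z.1 a i z.2 (h' ▸ hy)
        exact ha (this ▸ hi)
      · have h' : y.1 = z.1 :=
          congrArg (fun t : ↥(orbUnion (G := G) x (insert a s)) => t.1) h
        rw [Subtype.ext h']
    · rintro ⟨y, i, hi, hy⟩
      rcases Finset.mem_insert.1 hi with rfl | hi'
      · exact ⟨Sum.inl ⟨y, hy⟩, rfl⟩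
      · exact ⟨Sum.inr ⟨y, i, hi', hy⟩, rfl⟩

/-- `x : ι → Ω` a system of representatives of the orbits.  (Induction on `ι` / on `card Ω`: split off the orbit of `x i` with
`funRep_split`, `funRep_orbit`;  or `Ω ≃ Σ i, orbit (x i)` and a dependent product version of `ev_prod`.) -/
theorem AddFun.ev_funRep_eq_sum (Φ : AddFun k G) [Module.Finite k V] (Ω : Type) [MulAction G Ω]
    [Finite Ω] {ι : Type} [Fintype ι] (x : ι → Ω)
    (hx : ∀ y : Ω, ∃! i, y ∈ MulAction.orbit G (x i)) (ρ : Representation k G V) :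
    Φ.ev (funRep Ω ρ) = ∑ i, Φ.ev (funRep (G ⧸ MulAction.stabilizer G (x i)) ρ) := by
  rw [← Φ.ev_funRep_orbUnion Ω x (fun y i j hi hj => (hx y).unique hi hj) ρ Finset.univ]
  refine Φ.ev_iso (funRep_equiv
    { toFun := fun y => (⟨y, by
        obtain ⟨i, hi, -⟩ := hx y
        exact ⟨i, Finset.mem_univ i, hi⟩⟩ : ↥(orbUnion (G := G) x Finset.univ))
      invFun := fun y => y.1
      left_inv := fun _ => rfl
      right_inv := fun _ => rfl } (fun _ _ => rfl) ρ)

end Fermat.Agent.S56.EC
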