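import Fermat.Agent.S56.EC.Alg.AddFun

/-!
# S56 / EC / ALG : WPs EC-A8 (closure properties of `IsProj`), EC-A9 (the projectivity criteria).
-/

set_option autoImplicit false

namespace Fermat.Agent.S56.EC

open Fermat.Agent.CFT (IsSES IsoRep)
open Representation (coind coindV)

variable {k : Type} [Field k] {G H : Type} [Group G] [Group H]
  {V W : Type} [AddCommGroup V] [Module k V] [AddCommGroup W] [Module k W]

/-! ### EC-A8 -/

lemma isProj_pow_reg (ι : Type) [Finite ι] : IsProj (powRep ι (regRep k G)) :=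
  ⟨PUnit, inferInstance, inferInstance, (1 : Representation k G PUnit), ι, inferInstance,
    isoRep_prod_subsingleton _ _⟩

lemma IsProj.of_iso {ρ : Representation k G V} {σ : Representation k G W} (h : IsoRep ρ σ)
    (hρ : IsProj ρ) : IsProj σ := by
  obtain ⟨V₂, _, _, ρ₂, ι, hι, hF⟩ := hρ
  exact ⟨V₂, _, _, ρ₂, ι, hι, isoRep_trans (isoRep_prod (isoRep_symm h) (isoRep_refl ρ₂)) hF⟩

lemma isProj_reg : IsProj (regRep k G) :=
  IsProj.of_iso (isoRep_pow_unique Unit _) (isProj_pow_reg Unit)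

lemma IsProj.of_summand {ρ : Representation k G V} {ρ₂ : Representation k G W} {X : Type}
    [AddCommGroup X] [Module k X] {σ : Representation k G X} (h : IsoRep (prodRep ρ ρ₂) σ)
    (hσ : IsProj σ) : IsProj ρ := by
  obtain ⟨V₂, _, _, σ₂, ι, hι, hF⟩ := hσ
  exact ⟨W × V₂, _, _, prodRep ρ₂ σ₂, ι, hι,
    isoRep_trans (isoRep_symm (isoRep_prod_assoc ρ ρ₂ σ₂))
      (isoRep_trans (isoRep_prod h (isoRep_refl σ₂)) hF)⟩

lemma IsProj.prod {ρ : Representation k G V} {σ : Representation k G W} (hρ : IsProj ρ)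
    (hσ : IsProj σ) : IsProj (prodRep ρ σ) := by
  obtain ⟨V₂, _, _, ρ₂, ι, hι, hF⟩ := hρ
  obtain ⟨W₂, _, _, σ₂, ι', hι', hF'⟩ := hσ
  have h1 : IsoRep (prodRep (prodRep ρ σ) (prodRep ρ₂ σ₂)) (prodRep (prodRep ρ ρ₂) (prodRep σ σ₂)) :=
    ⟨LinearEquiv.prodProdProdComm k V W V₂ W₂, fun _ _ => rfl⟩
  exact ⟨V₂ × W₂, _, _, prodRep ρ₂ σ₂, ι ⊕ ι', inferInstance,
    isoRep_trans h1 (isoRep_trans (isoRep_prod hF hF') (isoRep_symm (isoRep_pow_sum ι ι' _)))⟩

lemma IsProj.pow (ι : Type) [Finite ι] {ρ : Representation k G V} (hρ : IsProj ρ) :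
    IsProj (powRep ι ρ) := by
  obtain ⟨V₂, _, _, ρ₂, κ, hκ, hF⟩ := hρ
  exact ⟨ι → V₂, _, _, powRep ι ρ₂, ι × κ, inferInstance,
    isoRep_trans (isoRep_symm (isoRep_pow_prod ι ρ ρ₂))
      (isoRep_trans (isoRep_pow ι hF) (isoRep_pow_pow ι κ _))⟩

lemma isProj_subsingleton [Subsingleton V] (ρ : Representation k G V) : IsProj ρ :=
  ⟨Empty → G → k, _, _, powRep Empty (regRep k G), Empty, inferInstance,
    isoRep_trans (isoRep_prod_comm ρ _) (isoRep_prod_subsingleton _ ρ)⟩

lemma IsProj.coind (f : H →* G) (hf : Function.Injective f) {σ : Representation k H V}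
    (hσ : IsProj σ) : IsProj (Representation.coind f σ) := by
  obtain ⟨V₂, _, _, σ₂, ι, hι, hF⟩ := hσ
  exact ⟨↥(coindV f σ₂), _, _, Representation.coind f σ₂, ι, hι,
    isoRep_trans (isoRep_symm (coind_prod f σ σ₂))
      (isoRep_trans (coind_iso f hF)
        (isoRep_trans (coind_pow f ι _) (isoRep_pow ι (coind_reg f hf))))⟩

/-- `V ⊗ k[G]` is projective -/
lemma isProj_funRep_self [Module.Finite k V] (ρ : Representation k G V) : IsProj (funRep G ρ) :=
  IsProj.of_iso (isoRep_symm (funRep_self_free ρ)) (isProj_pow_reg _)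

/-! ### EC-A9 -/

/-- `V` is a direct summand of `V ⊗ k[Ω]` if `|Ω|` is invertible in `k`. -/
theorem exists_isoRep_prod_funRep (Ω : Type) [MulAction G Ω] [Finite Ω]
    (hΩ : (Nat.card Ω : k) ≠ 0) (ρ : Representation k G V) :
    ∃ (V₂ : Type) (_ : AddCommGroup V₂) (_ : Module k V₂) (ρ₂ : Representation k G V₂),
      IsoRep (prodRep ρ ρ₂) (funRep Ω ρ) := by
  have := Fintype.ofFinite Ω
  refine isoRep_prod_of_split (ρ := ρ) (σ := funRep Ω ρ) (LinearMap.pi fun _ => LinearMap.id)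
    ((Nat.card Ω : k)⁻¹ • sumMap k Ω V) (fun g v => ?_) (fun g F => ?_) (fun v => ?_)
  · ext x
    simp
  · rw [LinearMap.smul_apply, LinearMap.smul_apply, sumMap_funRep, map_smul]
  · rw [LinearMap.smul_apply, sumMap_apply]
    simp only [LinearMap.pi_apply, LinearMap.id_apply, Finset.sum_const, Finset.card_univ]
    rw [← Nat.card_eq_fintype_card, ← Nat.cast_smul_eq_nsmul k, smul_smul, inv_mul_cancel₀ hΩ,
      one_smul]

/-- **Sylow criterion**: if `[G:P]` is invertible in `k` and `Res_P V` is projective then `V` is projective.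
(`V → V ⊗ k[G/P] → V`, constants and `[G:P]⁻¹ • sumMap`, `isoRep_prod_of_split`, `funRep_quot`, `IsProj.coind`.) -/
theorem isProj_of_index [Finite G] (P : Subgroup G) (hP : (P.index : k) ≠ 0)
    (ρ : Representation k G V) (h : IsProj (ρ.comp P.subtype)) : IsProj ρ := by
  obtain ⟨V₂, _, _, ρ₂, h2⟩ := exists_isoRep_prod_funRep (G ⧸ P)
    (by rwa [← Subgroup.index_eq_card]) ρ
  exact IsProj.of_summand h2
    (IsProj.of_iso (isoRep_symm (funRep_quot P ρ)) (IsProj.coind P.subtype P.subtype_injective h))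

/-- **Maschke**: if `|G|` is invertible in `k`, everything is projective.  (`V → V ⊗ k[G] → V`.) -/
theorem isProj_of_card [Finite G] (hG : (Nat.card G : k) ≠ 0) [Module.Finite k V]
    (ρ : Representation k G V) : IsProj ρ := by
  obtain ⟨V₂, _, _, ρ₂, h2⟩ := exists_isoRep_prod_funRep G hG ρ
  exact IsProj.of_summand h2 (isProj_funRep_self ρ)

/-- `V ⊗ k[Ω]` is projective if all stabilisers have order invertible in `k`
(`funRep_induction`, `funRep_quot`, `isProj_of_card`, `IsProj.coind`). -/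
theorem isProj_funRep [Finite G] [Module.Finite k V] (Ω : Type) [MulAction G Ω] [Finite Ω]
    (hΩ : ∀ x : Ω, (Nat.card ↥(MulAction.stabilizer G x) : k) ≠ 0) (ρ : Representation k G V) :
    IsProj (funRep Ω ρ) := by
  refine funRep_induction (P := fun V _ _ ρ => IsProj ρ) (fun _ _ h => IsProj.of_iso h)
    (fun _ _ => IsProj.prod) (fun ρ => isProj_subsingleton ρ) Ω ρ (fun x => ?_)
  exact IsProj.of_iso (isoRep_symm (funRep_quot (MulAction.stabilizer G x) ρ))
    (IsProj.coind _ (Subgroup.subtype_injective _) (isProj_of_card (hΩ x) _))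

/-- the complement trick for additive functions: `Φ ≥ 0` on projectives, `Φ(k[G]) = 0` ⟹ `Φ = 0` on projectives.
NB the complement `ρ₂` of a finite dimensional `ρ` is finite dimensional. -/
theorem AddFun.eq_zero_of_nonneg [Finite G] (Φ : AddFun k G)
    (hpos : ∀ (V : Type) [AddCommGroup V] [Module k V] [Module.Finite k V]
      (ρ : Representation k G V), IsProj ρ → 0 ≤ Φ.ev ρ)
    (hreg : Φ.ev (regRep k G) = 0) [Module.Finite k V] (ρ : Representation k G V)
    (hρ : IsProj ρ) : Φ.ev ρ = 0 := by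
  obtain ⟨V₂, _, _, ρ₂, ι, hι, hF⟩ := hρ
  have hfin : Module.Finite k (V × V₂) := finite_of_isoRep (isoRep_symm hF)
  have hfin2 : Module.Finite k V₂ :=
    Module.Finite.of_surjective (LinearMap.snd k V V₂) LinearMap.snd_surjective
  have h1 : Φ.ev ρ + Φ.ev ρ₂ = 0 := by
    rw [← Φ.ev_prod, Φ.ev_iso hF, Φ.ev_pow, hreg, mul_zero]
  have h2 : IsProj ρ := ⟨V₂, _, _, ρ₂, ι, hι, hF⟩
  have h3 : IsProj ρ₂ := IsProj.of_summand (isoRep_trans (isoRep_prod_comm ρ₂ ρ) hF)
    (isProj_pow_reg ι)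
  have h4 := hpos V ρ h2
  have h5 := hpos V₂ ρ₂ h3
  omega

end Fermat.Agent.S56.EC
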